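import Fermat.Agent.SS.H1.New

/-!
# SS / H1, part 3b : the criterion for `Splits₁`, `Splits₂`

* `splits₁_of_sub`, `splits₂_of_sub` : the criterion used by the concrete side ([NORM]).
  PROOF. (SAT) for `V₁ = L(a₁ P)` and `V₂`: an element of `redSub V₁ ⊓ redSub V₂` has components
  in `L(a₁ P_i)` without poles on `supp P_i`, i.e. constants, glued at a node (`nonempty_S`) :
  dimension `≤ 1`, and `1 ∈ V₁ ⊓ V₂`.  So `red z = G + G'`, `G ∈ M 1 a₁ 0`, `G' ∈ redSub V₂`;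
  `G'.i = w.i - G.i ∈ L(max a a₁ P_i + b P_i')` has no pole on `supp P_i`, so it is in `L(b P_i')`.
-/

set_option autoImplicit false
set_option linter.unusedSectionVars false

open AlgebraicCurve

namespace Fermat.Agent.SS

open Fermat.Agent.RED Fermat.Agent.S24

variable {K F k Fb : Type*} [Field K] [Field F] [Algebra K F] [Field k] [Field Fb] [Algebra k Fb]
  [IsAlgClosed K] [IsAlgClosed k] {x : F} {t : Fb}

namespace NodalData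

variable {T : TwoRed K F k Fb} (𝒩 : NodalData T)

omit [IsAlgClosed k] in
/-- a function of `L(m P + b P')` without pole on `supp P` is in `L(b P')` -/
private theorem crit_mem_L_of_no_pole {P P' : Divisor k Fb} (hP' : 0 ≤ P') {m b : ℕ} {u : Fb}
    (hu : u ∈ riemannRochSpace (m • P + b • P')) (hnp : ∀ Q, P Q ≠ 0 → 0 ≤ Q.ord u) :
    u ∈ riemannRochSpace (b • P') := by
  rcases eq_or_ne u 0 with rfl | hu0
  · exact Submodule.zero_mem _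
  rw [mem_L_iff_of_ne_zero hu0] at hu ⊢
  intro Q
  have h1 := hu Q
  rw [Finsupp.add_apply, Finsupp.smul_apply, Finsupp.smul_apply] at h1
  rw [Finsupp.smul_apply]
  by_cases hQ : P Q = 0
  · rw [hQ, smul_zero, zero_add] at h1
    exact h1
  · have h2 : (0 : ℤ) ≤ P' Q := hP' Q
    have h3 : (0 : ℤ) ≤ b • P' Q := nsmul_nonneg h2 b
    exact add_nonneg (hnp Q hQ) h3

/-- common part of the two criteria -/
theorem red_mem_sup_of_sub_gen (hx : IsSepParam K x) (hb : IsSepParam k t) {a₁ : ℕ}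
    (V₂ : Submodule K F) [FiniteDimensional K V₂] (h1 : (1 : F) ∈ V₂)
    (hV₂ : ∀ u : T.O, (u : F) ∈ V₂ → (∀ Q, 𝒩.P₁ Q ≠ 0 → 0 ≤ Q.ord (T.red u).1) ∧
      (∀ Q, 𝒩.P₂ Q ≠ 0 → 0 ≤ Q.ord (T.red u).2))
    (y₁ y₂ z : T.O) {c : K} (hc : c ≠ 0) (hy₁ : (y₁ : F) ∈ riemannRochSpace (𝒩.X a₁ 0))
    (hy₂ : (y₂ : F) ∈ V₂) (h : (y₁ : F) - y₂ = algebraMap K F c * (z : F)) :
    T.red z ∈ 𝒩.Msub 1 a₁ 0 ⊔ T.redSub V₂ := by
  have : FiniteDimensional K (riemannRochSpace (𝒩.X a₁ 0)) := hx.finite_L _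
  have := 𝒩.finite_Msub hb 1 0 0
  -- the intersection of the reductions consists of constants
  have hle : T.redSub (riemannRochSpace (𝒩.X a₁ 0)) ⊓ T.redSub V₂ ≤ 𝒩.Msub 1 0 0 := by
    rintro w ⟨hw1, hw2⟩
    obtain ⟨g1, g2, g3⟩ := 𝒩.redSub_le_Msub a₁ 0 hw1
    obtain ⟨u, hu, rfl⟩ := hw2
    obtain ⟨n1, n2⟩ := hV₂ u hu
    have e1 : 𝒩.X₁ 0 0 = 0 • 𝒩.P₁' := by simp [X₁]
    have e2 : 𝒩.X₂ 0 0 = 0 • 𝒩.P₂' := by simp [X₂]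
    refine ⟨?_, ?_, g3⟩
    · rw [e1]
      exact crit_mem_L_of_no_pole 𝒩.P₁'_nonneg g1 n1
    · rw [e2]
      exact crit_mem_L_of_no_pole 𝒩.P₂'_nonneg g2 n2
  have h1' : (1 : F) ∈ riemannRochSpace (𝒩.X a₁ 0) := by
    rw [mem_L_iff_of_ne_zero one_ne_zero]
    intro v
    have h2 : (0 : ℤ) ≤ 𝒩.X a₁ 0 v := by
      have : (0 : Divisor K F) ≤ 𝒩.X a₁ 0 :=
        add_nonneg (nsmul_nonneg 𝒩.P_nonneg _) (nsmul_nonneg 𝒩.P'_nonneg _)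
      exact this v
    simpa using h2
  have hdim : Module.finrank k ↥(T.redSub (riemannRochSpace (𝒩.X a₁ 0)) ⊓ T.redSub V₂) ≤
      Module.finrank K ↥(riemannRochSpace (𝒩.X a₁ 0) ⊓ V₂) := by
    have h2 := Submodule.finrank_mono hle
    rw [𝒩.finrank_Msub_zero hx hb] at h2
    refine h2.trans ?_
    have : Nontrivial ↥(riemannRochSpace (𝒩.X a₁ 0) ⊓ V₂) :=
      ⟨⟨⟨1, h1', h1⟩, 0, fun h0 => one_ne_zero (congrArg Subtype.val h0)⟩⟩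
    exact Module.finrank_pos
  have hsat := T.redSub_sup 𝒩.on2 (riemannRochSpace (𝒩.X a₁ 0)) V₂ hdim
  have hz : (z : F) ∈ riemannRochSpace (𝒩.X a₁ 0) ⊔ V₂ := by
    have e : (z : F) = c⁻¹ • ((y₁ : F) - y₂) := by
      rw [h, Algebra.smul_def, ← mul_assoc, ← map_mul, inv_mul_cancel₀ hc, map_one, one_mul]
    rw [e]
    exact Submodule.smul_mem _ _ (Submodule.sub_mem _ (Submodule.mem_sup_left hy₁)
      (Submodule.mem_sup_right hy₂))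
  have h3 : T.red z ∈ T.redSub (riemannRochSpace (𝒩.X a₁ 0) ⊔ V₂) := ⟨z, hz, rfl⟩
  rw [hsat] at h3
  exact sup_le_sup_right (𝒩.redSub_le_Msub a₁ 0) _ h3

theorem splits₁_of_sub (hx : IsSepParam K x) (hb : IsSepParam k t) {a₁ : ℕ}
    (V₂ : Submodule K F) [FiniteDimensional K V₂] (h1 : (1 : F) ∈ V₂)
    (hV₂ : ∀ u : T.O, (u : F) ∈ V₂ → (∀ Q, 𝒩.P₁ Q ≠ 0 → 0 ≤ Q.ord (T.red u).1) ∧
      (∀ Q, 𝒩.P₂ Q ≠ 0 → 0 ≤ Q.ord (T.red u).2))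
    (y₁ y₂ z : T.O) {c : K} (hc : c ≠ 0) (hy₁ : (y₁ : F) ∈ riemannRochSpace (𝒩.X a₁ 0))
    (hy₂ : (y₂ : F) ∈ V₂) (h : (y₁ : F) - y₂ = algebraMap K F c * (z : F))
    {a b : ℕ} {w : Fb × Fb} (hw : w ∈ 𝒩.Msub 1 a b) (hz : (T.red z).1 = w.1) :
    𝒩.Splits₁ w.1 := by
  have h0 := 𝒩.red_mem_sup_of_sub_gen hx hb V₂ h1 hV₂ y₁ y₂ z hc hy₁ hy₂ h
  obtain ⟨G, hG, G', hG', hsum⟩ := Submodule.mem_sup.1 h0
  obtain ⟨u, hu, rfl⟩ := hG'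
  have e1 : w.1 = G.1 + (T.red u).1 := by rw [← hz, ← hsum]; rfl
  have hG1 : G.1 ∈ riemannRochSpace (a₁ • 𝒩.P₁) := by
    have := hG.1
    simpa [X₁] using this
  refine ⟨a₁, b, ?_⟩
  rw [e1]
  refine Submodule.add_mem_sup hG1 (crit_mem_L_of_no_pole (m := max a a₁) 𝒩.P₁'_nonneg ?_
    (hV₂ u hu).1)
  have e2 : (T.red u).1 = w.1 - G.1 := by rw [e1]; ring
  rw [e2]
  refine Submodule.sub_mem _ (L_mono (𝒩.X₁_mono (le_max_left a a₁) le_rfl) hw.1)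
    (L_mono (𝒩.X₁_mono (le_max_right a a₁) (Nat.zero_le b)) hG.1)

theorem splits₂_of_sub (hx : IsSepParam K x) (hb : IsSepParam k t) {a₁ : ℕ}
    (V₂ : Submodule K F) [FiniteDimensional K V₂] (h1 : (1 : F) ∈ V₂)
    (hV₂ : ∀ u : T.O, (u : F) ∈ V₂ → (∀ Q, 𝒩.P₁ Q ≠ 0 → 0 ≤ Q.ord (T.red u).1) ∧
      (∀ Q, 𝒩.P₂ Q ≠ 0 → 0 ≤ Q.ord (T.red u).2))
    (y₁ y₂ z : T.O) {c : K} (hc : c ≠ 0) (hy₁ : (y₁ : F) ∈ riemannRochSpace (𝒩.X a₁ 0))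
    (hy₂ : (y₂ : F) ∈ V₂) (h : (y₁ : F) - y₂ = algebraMap K F c * (z : F))
    {a b : ℕ} {w : Fb × Fb} (hw : w ∈ 𝒩.Msub 1 a b) (hz : (T.red z).2 = w.2) :
    𝒩.Splits₂ w.2 := by
  have h0 := 𝒩.red_mem_sup_of_sub_gen hx hb V₂ h1 hV₂ y₁ y₂ z hc hy₁ hy₂ h
  obtain ⟨G, hG, G', hG', hsum⟩ := Submodule.mem_sup.1 h0
  obtain ⟨u, hu, rfl⟩ := hG'
  have e1 : w.2 = G.2 + (T.red u).2 := by rw [← hz, ← hsum]; rfl
  have hG1 : G.2 ∈ riemannRochSpace (a₁ • 𝒩.P₂) := by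
    have := hG.2.1
    simpa [X₂] using this
  refine ⟨a₁, b, ?_⟩
  rw [e1]
  refine Submodule.add_mem_sup hG1 (crit_mem_L_of_no_pole (m := max a a₁) 𝒩.P₂'_nonneg ?_
    (hV₂ u hu).2)
  have e2 : (T.red u).2 = w.2 - G.2 := by rw [e1]; ring
  rw [e2]
  refine Submodule.sub_mem _ (L_mono (𝒩.X₂_mono (le_max_left a a₁) le_rfl) hw.2.1)
    (L_mono (𝒩.X₂_mono (le_max_right a a₁) (Nat.zero_le b)) hG.2.1)

end NodalData

end Fermat.Agent.SS
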