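import Fermat.Agent.SS.H1.Normal

/-!
# SS / H1, part 1b : the depth of a normal form is maximal

`V₁ = L(D + a P)`, `V₂ = L(D + b P')`, `M₁ = M 1 a 0`, `M₂ = M 1 0 b`.

* (L4) `IsPair.v_le` : the depth of such a pair is maximal.
  PROOF. `V := V₁ ⊔ V₂`, `redSub V = M₁ ⊔ M₂ ⊔ k (red ψ)` (dimensions).  By
  `exists_add_of_redSub_sup` (twice: `V₁`, `V₂ ⊔ K ψ`; then `V₂`, `K ψ`) `ψ' = l₁ + l₂ + α ψ`,
  `l_i ∈ V_i ∩ O`, `α ∈ A`.  Then `n₁' - c' l₁ - (c' α / c) n₁ = n₂' + c' l₂ - (c' α / c) n₂`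
  lies in `V₁ ⊓ V₂ = 0`.  If `|c'| < |c|` the reduction of `n₁' = c' l₁ + (c' α / c) n₁` is `0 ≠ 1`.
-/

set_option autoImplicit false
set_option linter.unusedSectionVars false

open AlgebraicCurve

namespace Fermat.Agent.SS

open Fermat.Agent.RED Fermat.Agent.S24

variable {K F k Fb : Type*} [Field K] [Field F] [Algebra K F] [Field k] [Field Fb] [Algebra k Fb]
  [IsAlgClosed K] [IsAlgClosed k] {x : F} {t : Fb}

/-- dimension criterion for `redSub V ≤ redSub V₁ ⊔ redSub V₂` -/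
theorem TwoRed.redSub_le_sup_of_finrank_le (T : TwoRed K F k Fb) (V V₁ V₂ : Submodule K F)
    [FiniteDimensional K V] (h₁ : V₁ ≤ V) (h₂ : V₂ ≤ V)
    (h : Module.finrank K V ≤ Module.finrank k ↥(T.redSub V₁ ⊔ T.redSub V₂)) :
    T.redSub V ≤ T.redSub V₁ ⊔ T.redSub V₂ := by
  have := T.finite_redSub V
  have hle : T.redSub V₁ ⊔ T.redSub V₂ ≤ T.redSub V :=
    sup_le (T.redSub_mono h₁) (T.redSub_mono h₂)
  exact (Submodule.eq_of_le_of_finrank_le hle ((T.finrank_redSub_le V).trans h)).ge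

/-- adding a vector outside a subspace raises the dimension -/
theorem finrank_succ_le_sup_span {k E : Type*} [Field k] [AddCommGroup E] [Module k E]
    (M : Submodule k E) [FiniteDimensional k M] {r : E} (hr : r ∉ M) :
    Module.finrank k M + 1 ≤ Module.finrank k ↥(M ⊔ Submodule.span k {r}) := by
  have hlt : M < M ⊔ Submodule.span k {r} := by
    refine lt_of_le_of_ne le_sup_left fun heq => hr ?_
    rw [heq]
    exact Submodule.mem_sup_right (Submodule.mem_span_singleton_self r)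
  exact Submodule.finrank_lt_finrank_of_lt hlt

namespace IsPair

variable {T : TwoRed K F k Fb} {𝒩 : NodalData T}

/-- (L4) **the depth of a normal form is maximal** -/
theorem v_le (hx : IsSepParam K x) (hb : IsSepParam k t) {n : ℕ} (hn : 𝒩.IsLarge n)
    {p : ℕ} (hp : p.Prime) [CharP k p] {D : Divisor K F} {f : T.O} (h : IsOne T p D f)
    (hD : ¬ D.IsPrincipal) {a b : ℕ} (ha : n ≤ a) (hb' : n ≤ b) {n₁ n₂ ψ : T.O} {c : K}
    (hP : IsPair 𝒩 D a b n₁ n₂ ψ c) (hc : c ≠ 0)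
    (hψ : T.red ψ ∉ 𝒩.Msub 1 a 0 ⊔ 𝒩.Msub 1 0 b)
    {n₁' n₂' ψ' : T.O} {c' : K} (hP' : IsPair 𝒩 D a b n₁' n₂' ψ' c') : T.v c ≤ T.v c' := by
  classical
  obtain ⟨V₁, hV₁⟩ : ∃ V : Submodule K F, V = riemannRochSpace (D + 𝒩.X a 0) := ⟨_, rfl⟩
  obtain ⟨V₂, hV₂⟩ : ∃ V : Submodule K F, V = riemannRochSpace (D + 𝒩.X 0 b) := ⟨_, rfl⟩
  have hf₁ : FiniteDimensional K V₁ := hV₁ ▸ hx.finite_L _
  have hf₂ : FiniteDimensional K V₂ := hV₂ ▸ hx.finite_L _
  have hW₁ : T.redSub V₁ = 𝒩.Msub 1 a 0 := by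
    rw [hV₁]
    exact 𝒩.W_eq_Msub_one hx hb hn hp h (by omega)
  have hW₂ : T.redSub V₂ = 𝒩.Msub 1 0 b := by
    rw [hV₂]
    exact 𝒩.W_eq_Msub_one hx hb hn hp h (by omega)
  have hcap : ∀ u : F, u ∈ V₁ → u ∈ V₂ → u = 0 := fun u h₁ h₂ =>
    NodalData.eq_zero_of_mem_L hx hp h hD (𝒩.mem_L_of_mem_of_mem (hV₁ ▸ h₁) (hV₂ ▸ h₂))
  have hn₁ : (n₁ : F) ∈ V₁ := hV₁ ▸ hP.mem₁
  have hn₂ : (n₂ : F) ∈ V₂ := hV₂ ▸ hP.mem₂
  have hn₁' : (n₁' : F) ∈ V₁ := hV₁ ▸ hP'.mem₁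
  have hn₂' : (n₂' : F) ∈ V₂ := hV₂ ▸ hP'.mem₂
  have hone : T.red n₁' ≠ 0 := by
    rw [hP'.red₁]
    exact one_ne_zero
  have hr0 : T.red ψ ≠ 0 := fun h0 => hψ (h0 ▸ Submodule.zero_mem _)
  by_contra hlt
  rw [not_le] at hlt
  -- `c' ≠ 0`
  have hc' : c' ≠ 0 := by
    rintro rfl
    have h1 := hP'.eq
    rw [map_zero, zero_mul, sub_eq_zero] at h1
    have h2 : (n₁' : F) = 0 := hcap _ hn₁' (h1 ▸ hn₂')
    apply hone
    have : n₁' = 0 := Subtype.ext h2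
    rw [this, map_zero]
  -- `ψ`, `ψ'` in terms of the `n`'s
  have hψeq : (ψ : F) = algebraMap K F c⁻¹ * ((n₁ : F) - n₂) := by
    rw [hP.eq, ← mul_assoc, ← map_mul, inv_mul_cancel₀ hc, map_one, one_mul]
  have hψeq' : (ψ' : F) = algebraMap K F c'⁻¹ * ((n₁' : F) - n₂') := by
    rw [hP'.eq, ← mul_assoc, ← map_mul, inv_mul_cancel₀ hc', map_one, one_mul]
  have hsubV : ∀ (e : K) (m₁ m₂ : F), m₁ ∈ V₁ → m₂ ∈ V₂ →
      algebraMap K F e * (m₁ - m₂) ∈ V₁ ⊔ V₂ := by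
    intro e m₁ m₂ h₁ h₂
    rw [← Algebra.smul_def]
    exact Submodule.smul_mem _ _
      (Submodule.sub_mem _ (Submodule.mem_sup_left h₁) (Submodule.mem_sup_right h₂))
  have hψV : (ψ : F) ∈ V₁ ⊔ V₂ := hψeq ▸ hsubV _ _ _ hn₁ hn₂
  have hψV' : (ψ' : F) ∈ V₁ ⊔ V₂ := hψeq' ▸ hsubV _ _ _ hn₁' hn₂'
  -- `|c| ≤ 1`
  have hc1 : T.v c ≤ 1 := by
    by_contra hcon
    rw [not_le] at hcon
    apply hr0
    refine T.red_eq_zero_of_v_lt (c := c⁻¹) ?_ (n₁ - n₂) ψ hψeq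
    rw [map_inv₀]
    exact inv_lt_one_of_one_lt₀ hcon
  -- dimensions
  have on2 := 𝒩.on2
  have hd₁ : Module.finrank k (𝒩.Msub 1 a 0) = Module.finrank K V₁ := by
    rw [← hW₁]
    exact T.finrank_redSub_eq on2 V₁
  have hd₂ : Module.finrank k (𝒩.Msub 1 0 b) = Module.finrank K V₂ := by
    rw [← hW₂]
    exact T.finrank_redSub_eq on2 V₂
  have hfM₁ := 𝒩.finite_Msub hb 1 a 0
  have hfM₂ := 𝒩.finite_Msub hb 1 0 b
  have hinf : 𝒩.Msub 1 a 0 ⊓ 𝒩.Msub 1 0 b = 𝒩.Msub 1 0 0 := by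
    apply SetLike.coe_injective
    rw [Submodule.coe_inf, NodalData.coe_Msub, NodalData.coe_Msub, NodalData.coe_Msub,
      NodalData.M_inter, Nat.min_zero, Nat.zero_min]
  have hM : Module.finrank k ↥(𝒩.Msub 1 a 0 ⊔ 𝒩.Msub 1 0 b) + 1 =
      Module.finrank K V₁ + Module.finrank K V₂ := by
    have h1 := Submodule.finrank_sup_add_finrank_inf_eq (𝒩.Msub 1 a 0) (𝒩.Msub 1 0 b)
    rw [hinf, 𝒩.finrank_Msub_zero hx hb, hd₁, hd₂] at h1
    exact h1
  have hVle : Module.finrank K ↥(V₁ ⊔ V₂) ≤ Module.finrank K V₁ + Module.finrank K V₂ :=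
    Submodule.finrank_add_le_finrank_add_finrank V₁ V₂
  have hrmem : T.red ψ ∈ T.redSub (Submodule.span K {(ψ : F)}) :=
    ⟨ψ, Submodule.mem_span_singleton_self _, rfl⟩
  have hspan : Submodule.span k {T.red ψ} ≤ T.redSub (Submodule.span K {(ψ : F)}) :=
    (Submodule.span_singleton_le_iff_mem _ _).2 hrmem
  -- first splitting
  have hle' : V₂ ⊔ Submodule.span K {(ψ : F)} ≤ V₁ ⊔ V₂ :=
    sup_le le_sup_right ((Submodule.span_singleton_le_iff_mem _ _).2 hψV)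
  have hfr₁ := T.finite_redSub V₁
  have hfr₂ := T.finite_redSub V₂
  have hfr' := T.finite_redSub (V₂ ⊔ Submodule.span K {(ψ : F)})
  have hfrψ := T.finite_redSub (Submodule.span K {(ψ : F)})
  have hs1 : T.redSub (V₁ ⊔ V₂) ≤
      T.redSub V₁ ⊔ T.redSub (V₂ ⊔ Submodule.span K {(ψ : F)}) := by
    refine T.redSub_le_sup_of_finrank_le _ _ _ le_sup_left hle' (hVle.trans ?_)
    rw [← hM]
    refine (finrank_succ_le_sup_span _ hψ).trans (Submodule.finrank_mono ?_)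
    refine sup_le (sup_le ?_ ?_) ?_
    · rw [← hW₁]
      exact le_sup_left
    · rw [← hW₂]
      exact (T.redSub_mono le_sup_left).trans le_sup_right
    · exact (hspan.trans (T.redSub_mono le_sup_right)).trans le_sup_right
  obtain ⟨l₁, u₂, hl₁, hu₂, hψ'1⟩ := T.exists_add_of_redSub_sup (V₁ ⊔ V₂) V₁
    (V₂ ⊔ Submodule.span K {(ψ : F)}) le_sup_left hle' (on2 _ inferInstance) hs1 ψ' hψV'
  -- second splitting
  have hψ₂ : T.red ψ ∉ 𝒩.Msub 1 0 b := fun hmem => hψ (Submodule.mem_sup_right hmem)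
  have hs2 : T.redSub (V₂ ⊔ Submodule.span K {(ψ : F)}) ≤
      T.redSub V₂ ⊔ T.redSub (Submodule.span K {(ψ : F)}) := by
    refine T.redSub_le_sup_of_finrank_le _ _ _ le_sup_left le_sup_right ?_
    refine (Submodule.finrank_add_le_finrank_add_finrank _ _).trans ?_
    have h1 : Module.finrank K ↥(Submodule.span K {(ψ : F)}) ≤ 1 := by
      simpa using finrank_span_le_card (R := K) ({(ψ : F)} : Set F)
    refine (Nat.add_le_add_left h1 _).trans ?_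
    rw [← hd₂]
    refine (finrank_succ_le_sup_span _ hψ₂).trans (Submodule.finrank_mono ?_)
    rw [hW₂]
    exact sup_le_sup_left hspan _
  obtain ⟨l₂, w, hl₂, hw, hu₂eq⟩ := T.exists_add_of_redSub_sup
    (V₂ ⊔ Submodule.span K {(ψ : F)}) V₂ (Submodule.span K {(ψ : F)}) le_sup_left le_sup_right
    (on2 _ inferInstance) hs2 u₂ hu₂
  obtain ⟨α, hα⟩ := Submodule.mem_span_singleton.1 hw
  rw [Algebra.smul_def] at hα
  -- `α ∈ A`
  have hα1 : T.v α ≤ 1 := by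
    by_contra hcon
    rw [not_le] at hcon
    have hα0 : α ≠ 0 := by
      rintro rfl
      rw [map_zero] at hcon
      exact absurd hcon (not_lt.2 zero_le)
    apply hr0
    refine T.red_eq_zero_of_v_lt (c := α⁻¹) ?_ w ψ ?_
    · rw [map_inv₀]
      exact inv_lt_one_of_one_lt₀ hcon
    · rw [← hα, ← mul_assoc, ← map_mul, inv_mul_cancel₀ hα0, map_one, one_mul]
  -- the identity
  have hψ'F : (ψ' : F) = (l₁ : F) + ((l₂ : F) + algebraMap K F α * (ψ : F)) := by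
    rw [hψ'1, hu₂eq, hα]
    rfl
  have hkey : (n₁' : F) - algebraMap K F c' * l₁ - algebraMap K F (c' * α * c⁻¹) * n₁ = 0 := by
    refine hcap _ ?_ ?_
    · refine Submodule.sub_mem _ (Submodule.sub_mem _ hn₁' ?_) ?_
      · rw [← Algebra.smul_def]
        exact V₁.smul_mem _ hl₁
      · rw [← Algebra.smul_def]
        exact V₁.smul_mem _ hn₁
    · have e1 : (n₁' : F) - algebraMap K F c' * l₁ - algebraMap K F (c' * α * c⁻¹) * n₁ =
          (n₂' : F) + algebraMap K F c' * l₂ - algebraMap K F (c' * α * c⁻¹) * n₂ := by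
        have e2 := hP'.eq
        rw [hψ'F, hψeq] at e2
        simp only [map_mul] at e2 ⊢
        linear_combination e2
      rw [e1]
      refine Submodule.sub_mem _ (Submodule.add_mem _ hn₂' ?_) ?_
      · rw [← Algebra.smul_def]
        exact V₂.smul_mem _ hl₂
      · rw [← Algebra.smul_def]
        exact V₂.smul_mem _ hn₂
  -- conclusion
  have hvc' : T.v c' < 1 := lt_of_lt_of_le hlt hc1
  have hvβ : T.v (c' * α * c⁻¹) < 1 := by
    have e1 : c' * α * c⁻¹ = (c' * c⁻¹) * α := by ring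
    rw [e1, map_mul]
    exact lt_of_le_of_lt (mul_le_of_le_one_right zero_le hα1) (T.v_div_lt_one hlt)
  have hm₁ : algebraMap K F c' * (l₁ : F) ∈ T.O :=
    T.const_mul_mem_O (T.v_le_one_iff.1 hvc'.le) l₁.2
  have hm₂ : algebraMap K F (c' * α * c⁻¹) * (n₁ : F) ∈ T.O :=
    T.const_mul_mem_O (T.v_le_one_iff.1 hvβ.le) n₁.2
  have hsum : n₁' = (⟨_, hm₁⟩ : T.O) + ⟨_, hm₂⟩ := by
    apply Subtype.ext
    change (n₁' : F) = algebraMap K F c' * (l₁ : F) + algebraMap K F (c' * α * c⁻¹) * (n₁ : F)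
    linear_combination hkey
  apply hone
  rw [hsum, map_add, T.red_eq_zero_of_v_lt hvc' l₁ ⟨_, hm₁⟩ rfl,
    T.red_eq_zero_of_v_lt hvβ n₁ ⟨_, hm₂⟩ rfl, add_zero]

end IsPair

end Fermat.Agent.SS
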