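import Fermat.Agent.SS.H1.Normal

/-!
# SS / H1, part 3 : classes which die in `H¹(C, O)` of both components

* `Splits₁ w₁`, `Splits₂ w₂` : `w_i ∈ L(a' P_i) + L(b' P_i')` for some `a'`, `b'`.
* (L6) `mem_sup_of_pow_mem` : Frobenius is injective on the toric part of `H¹(Z, O)`.
  PROOF. `w = (w₁, w₂) ∈ M 1 a b`, `w_i = g_i - g_i'`, `g_i ∈ L(a' P_i)`, `g_i' ∈ L(b' P_i')`,
  `w ^ p = G - G'`, `G ∈ M 1 a'' 0`, `G' ∈ M 1 0 b''`.  In characteristic `p`,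
  `g_i ^ p - G_i = g_i' ^ p - G_i'` lies in `L(* P_i) ∩ L(* P_i') = L(0) = k` (`mem_L_min`), say
  `= κ_i`.  `g₁`, `g₂` have values `γ₁ s`, `γ₂ s` at `x₁ s`, `x₂ s` (`exists_hasVal_of_mem_L`,
  `avoid₁`, `avoid₂`), `G` is glued, hence `(γ₁ s - γ₂ s) ^ p = κ₁ - κ₂` for all `s`, so
  `γ₁ s - γ₂ s = κ` is independent of `s` (`frobenius` injective).  Then `(g₁ - κ, g₂) ∈ M 1 a' 0`
  and `(g₁' - κ, g₂') = (g₁ - κ, g₂) - w` is glued, hence in `M 1 0 b'`.  Conclude by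
  `mem_sup_shrink`.
-/

set_option autoImplicit false
set_option linter.unusedSectionVars false

open AlgebraicCurve

namespace Fermat.Agent.SS

open Fermat.Agent.RED Fermat.Agent.S24

variable {K F k Fb : Type*} [Field K] [Field F] [Algebra K F] [Field k] [Field Fb] [Algebra k Fb]
  [IsAlgClosed K] [IsAlgClosed k] {x : F} {t : Fb}

namespace NodalData

variable {T : TwoRed K F k Fb} (𝒩 : NodalData T)

/-- trivial in `H¹` of the first component -/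
def Splits₁ (w : Fb) : Prop :=
  ∃ a' b' : ℕ, w ∈ riemannRochSpace (a' • 𝒩.P₁) ⊔ riemannRochSpace (b' • 𝒩.P₁')

/-- trivial in `H¹` of the second component -/
def Splits₂ (w : Fb) : Prop :=
  ∃ a' b' : ℕ, w ∈ riemannRochSpace (a' • 𝒩.P₂) ⊔ riemannRochSpace (b' • 𝒩.P₂')

/-- one component : `g ^ p - G` is a constant -/
theorem _root_.Fermat.Agent.SS.exists_const_of_split (hb : IsSepParam k t) {A B : Divisor k Fb}
    (hA : 0 ≤ A) (hB : 0 ≤ B) (hd : ∀ Q, A Q = 0 ∨ B Q = 0) {p : ℕ} (hp : p.Prime) [CharP k p]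
    {a' b' a'' b'' : ℕ} {g g' G G' : Fb} (hg : g ∈ riemannRochSpace (a' • A))
    (hg' : g' ∈ riemannRochSpace (b' • B)) (hG : G ∈ riemannRochSpace (a'' • A + 0 • B))
    (hG' : G' ∈ riemannRochSpace (0 • A + b'' • B)) (hwp : (g + g') ^ p = G + G') :
    ∃ κ : k, g ^ p - G = algebraMap k Fb κ := by
  haveI : Fact p.Prime := ⟨hp⟩
  haveI : CharP Fb p := charP_of_injective_algebraMap (algebraMap k Fb).injective p
  rw [add_pow_char] at hwp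
  have e : g ^ p - G = G' - g' ^ p := by linear_combination hwp
  have h1 : g ^ p - G ∈ riemannRochSpace ((p * a' + a'') • A + 0 • B) := by
    refine Submodule.sub_mem _ (L_mono ?_ (pow_mem_L hg p)) (L_mono ?_ hG)
    · rw [zero_smul, add_zero, smul_smul]
      exact nsmul_le_nsmul_left hA (Nat.le_add_right _ _)
    · exact add_le_add (nsmul_le_nsmul_left hA (Nat.le_add_left _ _)) le_rfl
  have h2 : g ^ p - G ∈ riemannRochSpace (0 • A + (p * b' + b'') • B) := by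
    rw [e]
    refine Submodule.sub_mem _ (L_mono ?_ hG') (L_mono ?_ (pow_mem_L hg' p))
    · exact add_le_add le_rfl (nsmul_le_nsmul_left hB (Nat.le_add_left _ _))
    · rw [zero_smul, zero_add, smul_smul]
      exact nsmul_le_nsmul_left hB (Nat.le_add_right _ _)
  have h3 := mem_L_min hd h1 h2
  rw [Nat.min_zero, Nat.zero_min, zero_smul, zero_smul, add_zero, hb.L_zero,
    Submodule.mem_one] at h3
  obtain ⟨κ, hκ⟩ := h3
  exact ⟨κ, hκ.symm⟩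

theorem _root_.Fermat.Agent.SS.algebraMap_mem_L {E : Divisor k Fb} (hE : 0 ≤ E) (κ : k) :
    algebraMap k Fb κ ∈ riemannRochSpace E := by
  rw [Algebra.algebraMap_eq_smul_one]
  exact L_mono hE (Submodule.smul_mem _ κ one_mem_L_zero)

/-- (L6) -/
theorem mem_sup_of_pow_mem (hx : IsSepParam K x) (hb : IsSepParam k t) {p : ℕ} (hp : p.Prime)
    [CharP k p] {a b a'' b'' : ℕ} {w : Fb × Fb} (hw : w ∈ 𝒩.Msub 1 a b)
    (h₁ : 𝒩.Splits₁ w.1) (h₂ : 𝒩.Splits₂ w.2)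
    (hpw : w ^ p ∈ 𝒩.Msub 1 a'' 0 ⊔ 𝒩.Msub 1 0 b'') :
    w ∈ 𝒩.Msub 1 a 0 ⊔ 𝒩.Msub 1 0 b := by
  haveI : Fact p.Prime := ⟨hp⟩
  obtain ⟨a₁, b₁, hs₁⟩ := h₁
  obtain ⟨a₂, b₂, hs₂⟩ := h₂
  obtain ⟨g₁, hg₁, g₁', hg₁', e₁⟩ := Submodule.mem_sup.1 hs₁
  obtain ⟨g₂, hg₂, g₂', hg₂', e₂⟩ := Submodule.mem_sup.1 hs₂
  obtain ⟨G, hG, G', hG', eG⟩ := Submodule.mem_sup.1 hpw
  obtain ⟨hG1, hG2, hG3⟩ := hG
  obtain ⟨hG1', hG2', -⟩ := hG'
  obtain ⟨κ₁, hκ₁⟩ := exists_const_of_split hb 𝒩.P₁_nonneg 𝒩.P₁'_nonneg 𝒩.disj₁ hp hg₁ hg₁'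
    hG1 hG1' (by rw [e₁, ← Prod.pow_fst, ← eG, Prod.fst_add])
  obtain ⟨κ₂, hκ₂⟩ := exists_const_of_split hb 𝒩.P₂_nonneg 𝒩.P₂'_nonneg 𝒩.disj₂ hp hg₂ hg₂'
    hG2 hG2' (by rw [e₂, ← Prod.pow_snd, ← eG, Prod.snd_add])
  have hv₁ : ∀ s, ∃ c, HasVal (𝒩.x₁ s) g₁ c := fun s =>
    exists_hasVal_of_mem_L _ hb (by simp [(𝒩.avoid₁ s).1]) hg₁
  have hv₂ : ∀ s, ∃ c, HasVal (𝒩.x₂ s) g₂ c := fun s =>
    exists_hasVal_of_mem_L _ hb (by simp [(𝒩.avoid₂ s).1]) hg₂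
  choose γ₁ hγ₁ using hv₁
  choose γ₂ hγ₂ using hv₂
  obtain ⟨κ, hκ⟩ := IsAlgClosed.exists_pow_nat_eq (κ₁ - κ₂) hp.pos
  have hkey : ∀ s, γ₁ s - γ₂ s = κ := by
    intro s
    obtain ⟨c, hc1, hc2⟩ := hG3 s
    rw [Pi.one_apply, one_mul] at hc1
    have h1 : γ₁ s ^ p - c = κ₁ :=
      HasVal.unique (((hγ₁ s).pow p).sub hc1) (hκ₁ ▸ HasVal.const κ₁)
    have h2 : γ₂ s ^ p - c = κ₂ :=
      HasVal.unique (((hγ₂ s).pow p).sub hc2) (hκ₂ ▸ HasVal.const κ₂)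
    apply frobenius_inj k p
    simp only [frobenius_def]
    rw [sub_pow_char, hκ, ← h1, ← h2]
    ring
  refine 𝒩.mem_sup_shrink hw (a' := max a₁ a₂) (b' := max b₁ b₂) ?_
  have hA : ((g₁ - algebraMap k Fb κ, g₂) : Fb × Fb) ∈ 𝒩.Msub 1 (max a₁ a₂) 0 := by
    refine ⟨?_, ?_, fun s => ⟨γ₂ s, ?_, hγ₂ s⟩⟩
    · refine Submodule.sub_mem _ (L_mono ?_ hg₁) (algebraMap_mem_L (𝒩.X₁_nonneg _ _) κ)
      exact le_add_of_le_of_nonneg (nsmul_le_nsmul_left 𝒩.P₁_nonneg (le_max_left _ _))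
        (by rw [zero_smul])
    · refine L_mono ?_ hg₂
      exact le_add_of_le_of_nonneg (nsmul_le_nsmul_left 𝒩.P₂_nonneg (le_max_right _ _))
        (by rw [zero_smul])
    · rw [Pi.one_apply, one_mul]
      have h0 : γ₁ s - κ = γ₂ s := by rw [← hkey s]; ring
      have := (hγ₁ s).sub (HasVal.const (Q := 𝒩.x₁ s) κ)
      rwa [h0] at this
  have hB : ((g₁' + algebraMap k Fb κ, g₂') : Fb × Fb) ∈ 𝒩.Msub 1 0 (max b₁ b₂) := by
    refine ⟨?_, ?_, fun s => ?_⟩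
    · refine Submodule.add_mem _ (L_mono ?_ hg₁') (algebraMap_mem_L (𝒩.X₁_nonneg _ _) κ)
      exact le_add_of_nonneg_of_le (by rw [zero_smul])
        (nsmul_le_nsmul_left 𝒩.P₁'_nonneg (le_max_left _ _))
    · refine L_mono ?_ hg₂'
      exact le_add_of_nonneg_of_le (by rw [zero_smul])
        (nsmul_le_nsmul_left 𝒩.P₂'_nonneg (le_max_right _ _))
    · obtain ⟨c, hc1, hc2⟩ := hw.2.2 s
      refine ⟨c - γ₂ s, ?_, ?_⟩
      · rw [Pi.one_apply, one_mul] at hc1 ⊢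
        have h0 : γ₁ s - κ = γ₂ s := by rw [← hkey s]; ring
        have h1 := hc1.sub ((hγ₁ s).sub (HasVal.const (Q := 𝒩.x₁ s) κ))
        have h2 : g₁ + g₁' - (g₁ - algebraMap k Fb κ) = g₁' + algebraMap k Fb κ := by ring
        rw [h0, ← e₁, h2] at h1
        exact h1
      · have h1 := hc2.sub (hγ₂ s)
        rw [← e₂, add_sub_cancel_left] at h1
        exact h1
  refine Submodule.mem_sup.2 ⟨_, hA, _, hB, ?_⟩
  apply Prod.ext
  · rw [Prod.fst_add, ← e₁]; ring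
  · rw [Prod.snd_add, ← e₂]

end NodalData

end Fermat.Agent.SS
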