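import Fermat.Agent.SS.H1.Normal

/-!
# SS / H1, part 4a : twisting a pair by a compatible automorphism

(L7) `IsPair.smul_mul_pow` : `n_i'' := g(n_i) n_i ^ m` is a pair for `D'' = g D + m D` at
`((m + 1) a, (m + 1) b)` (`ws_smul_mem_L`, `hg.P`, `hgP'`, `mul_mem_L`), and if `g(c) / c ≡ e`,
`p ∣ e + m`, then `n₁'' - n₂'' = c π ψ''`, `|π| < 1` :
`n₁'' - n₂'' = g(c) g(ψ) n₁ ^ m + g(n₂) c ψ ∑_{i < m} n₁ ^ i n₂ ^ (m - 1 - i)` (`Commute.mul_geom_sum₂`);
divided by `c` it is in `O` and reduces to `(e + m) red ψ = 0` (`hg.red`, `red n_i = 1`,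
`exists_eq_mul_of_red_eq_zero`).

`v_baseAut_sub_lt` : `c = lam υ`, `|υ| = 1`; `g(υ) ≡ υ` because `g` induces the identity on the
reductions (`hg.red₁` applied to the constant `υ`).
-/

set_option autoImplicit false
set_option linter.unusedSectionVars false

open AlgebraicCurve

namespace Fermat.Agent.SS

open Fermat.Agent.RED Fermat.Agent.S24

variable {K F k Fb : Type*} [Field K] [Field F] [Algebra K F] [Field k] [Field Fb] [Algebra k Fb]
  [IsAlgClosed K] [IsAlgClosed k] {x : F} {t : Fb}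

variable {T : TwoRed K F k Fb} {𝒩 : NodalData T}

namespace TwoRed

theorem tw_const_mem_O (T : TwoRed K F k Fb) {c : K} (hc : c ∈ T.A) : algebraMap K F c ∈ T.O :=
  ⟨hc, (T.const_mem c).1 hc⟩

/-- a constant of `A` whose reduction vanishes is small -/
theorem tw_v_lt_one_of_red (T : TwoRed K F k Fb) {c : K} (hc : c ∈ T.A)
    (h : T.R₁.red ⟨algebraMap K F c, hc⟩ = 0) : T.v c < 1 := by
  rcases lt_or_eq_of_le (T.v_le_one_iff.2 hc) with h1 | h1
  · exact h1
  exfalso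
  have hc0 : c ≠ 0 := by
    rintro rfl
    rw [map_zero] at h1
    exact zero_ne_one h1
  have hinv : c⁻¹ ∈ T.A := by
    rw [← T.v_le_one_iff, map_inv₀, h1, inv_one]
  have hmul : (⟨algebraMap K F c, hc⟩ : T.R₁.O) * ⟨algebraMap K F c⁻¹, hinv⟩ = 1 := by
    apply Subtype.ext
    change algebraMap K F c * algebraMap K F c⁻¹ = 1
    rw [← map_mul, mul_inv_cancel₀ hc0, map_one]
  have := congrArg T.R₁.red hmul
  rw [map_mul, h, zero_mul, map_one] at this
  exact zero_ne_one this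

/-- the reduction of a constant congruent to a natural number -/
theorem tw_red_const (T : TwoRed K F k Fb) {κ : K} (hκ : κ ∈ T.A) {e : ℕ}
    (h : T.v (κ - (e : K)) < 1) :
    T.red ⟨algebraMap K F κ, T.tw_const_mem_O hκ⟩ = (e : Fb × Fb) := by
  have hδ : κ - (e : K) ∈ T.A := T.v_le_one_iff.1 h.le
  have h0 : T.red ⟨algebraMap K F (κ - (e : K)), T.tw_const_mem_O hδ⟩ = 0 :=
    T.red_eq_zero_of_v_lt h 1 _ (by simp)
  have hsplit : (⟨algebraMap K F κ, T.tw_const_mem_O hκ⟩ : T.O) =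
      ⟨algebraMap K F (κ - (e : K)), T.tw_const_mem_O hδ⟩ + ((e : ℕ) : T.O) := by
    apply Subtype.ext
    change algebraMap K F κ = algebraMap K F (κ - (e : K)) + (((e : ℕ) : T.O) : F)
    rw [map_sub, map_natCast]
    simp
  rw [hsplit, map_add, h0, zero_add, map_natCast]

end TwoRed

theorem tw_natCast_eq_zero {p : ℕ} [CharP k p] {n : ℕ} (h : p ∣ n) : ((n : ℕ) : Fb × Fb) = 0 := by
  have h1 : ((n : ℕ) : Fb) = 0 := by
    rw [← map_natCast (algebraMap k Fb) n, (CharP.cast_eq_zero_iff k p n).2 h, map_zero]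
  exact Prod.ext h1 h1

theorem IsCompat.tw_smul_X {g : SemilinearAut K F} (hg : IsCompat 𝒩 g 1)
    (hgP' : g • 𝒩.P' = 𝒩.P') (a b : ℕ) : g • 𝒩.X a b = 𝒩.X a b := by
  unfold NodalData.X
  rw [smul_add, smul_comm, smul_comm g b, hg.P, hgP']

theorem IsCompat.tw_red_one {g : SemilinearAut K F} (hg : IsCompat 𝒩 g 1) (u : T.O) :
    T.red ⟨g • (u : F), hg.mem u⟩ = T.red u := by
  rw [hg.red u, one_smul, one_smul]

/-- membership of the twisted section -/
theorem IsCompat.tw_mem_L {g : SemilinearAut K F} (hg : IsCompat 𝒩 g 1)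
    (hgP' : g • 𝒩.P' = 𝒩.P') {D : Divisor K F} {a b : ℕ} {n : F}
    (hn : n ∈ riemannRochSpace (D + 𝒩.X a b)) (m : ℕ) :
    g • n * n ^ m ∈ riemannRochSpace (g • D + m • D + 𝒩.X ((m + 1) * a) ((m + 1) * b)) := by
  have h1 := NodalData.ws_smul_mem_L g hn
  rw [smul_add, hg.tw_smul_X hgP'] at h1
  have h2 := mul_mem_L h1 (pow_mem_L hn m)
  have e : g • D + 𝒩.X a b + m • (D + 𝒩.X a b) =
      g • D + m • D + 𝒩.X ((m + 1) * a) ((m + 1) * b) := by
    unfold NodalData.X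
    rw [mul_smul, mul_smul, add_smul, add_smul, one_smul, one_smul, smul_add, smul_add]
    abel
  rwa [e] at h2

/-- (L7) -/
theorem IsPair.smul_mul_pow {p : ℕ} [CharP k p] {g : SemilinearAut K F} (hg : IsCompat 𝒩 g 1)
    (hgP' : g • 𝒩.P' = 𝒩.P') {D : Divisor K F} {a b : ℕ} {n₁ n₂ ψ : T.O} {c : K}
    (hP : IsPair 𝒩 D a b n₁ n₂ ψ c) (hc : c ≠ 0) (hc1 : T.v c < 1) {e m : ℕ}
    (hge : T.v (SemilinearAut.baseAut g c - (e : K) * c) < T.v c) (hem : p ∣ e + m) :
    ∃ (n₁' n₂' ψ' : T.O) (c' : K),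
      IsPair 𝒩 (g • D + m • D) ((m + 1) * a) ((m + 1) * b) n₁' n₂' ψ' c' ∧ T.v c' < T.v c := by
  have hκ : SemilinearAut.baseAut g c * c⁻¹ ∈ T.A := hg.unit c hc
  have hκe : T.v (SemilinearAut.baseAut g c * c⁻¹ - (e : K)) < 1 := by
    have h1 := T.v_div_lt_one hge
    have h2 : (SemilinearAut.baseAut g c - (e : K) * c) * c⁻¹ =
        SemilinearAut.baseAut g c * c⁻¹ - (e : K) := by
      field_simp
    rwa [h2] at h1
  have hredκ := T.tw_red_const hκ hκe
  set κO : T.O := ⟨algebraMap K F (SemilinearAut.baseAut g c * c⁻¹), T.tw_const_mem_O hκ⟩ with hκO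
  set G1 : T.O := ⟨g • (n₁ : F), hg.mem n₁⟩ with hG1
  set G2 : T.O := ⟨g • (n₂ : F), hg.mem n₂⟩ with hG2
  set Gψ : T.O := ⟨g • (ψ : F), hg.mem ψ⟩ with hGψ
  have rG1 : T.red G1 = 1 := by rw [hG1, hg.tw_red_one, hP.red₁]
  have rG2 : T.red G2 = 1 := by rw [hG2, hg.tw_red_one, hP.red₂]
  have rGψ : T.red Gψ = T.red ψ := by rw [hGψ, hg.tw_red_one]
  set z : T.O := κO * Gψ * n₁ ^ m +
    G2 * ψ * ∑ i ∈ Finset.range m, n₁ ^ i * n₂ ^ (m - 1 - i) with hz
  have hredz : T.red z = 0 := by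
    rw [hz, map_add, map_mul, map_mul, map_mul, map_mul, map_pow, map_sum, hredκ, rGψ, rG2,
      hP.red₁]
    have : ∀ i ∈ Finset.range m, T.red (n₁ ^ i * n₂ ^ (m - 1 - i)) = 1 := by
      intro i _
      rw [map_mul, map_pow, map_pow, hP.red₁, hP.red₂, one_pow, one_pow, one_mul]
    rw [Finset.sum_congr rfl this, Finset.sum_const, Finset.card_range, one_pow, mul_one, one_mul,
      nsmul_eq_mul, mul_one, mul_comm (T.red ψ), ← add_mul, ← Nat.cast_add,
      tw_natCast_eq_zero (k := k) hem, zero_mul]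
  obtain ⟨π, ψ', hπ, hψ'⟩ := T.exists_eq_mul_of_red_eq_zero hredz
  refine ⟨G1 * n₁ ^ m, G2 * n₂ ^ m, ψ', c * π, ⟨?_, ?_, ?_, ?_, ?_⟩, ?_⟩
  · have := hg.tw_mem_L hgP' hP.mem₁ m
    rwa [mul_zero] at this
  · have := hg.tw_mem_L hgP' hP.mem₂ m
    rwa [mul_zero] at this
  · rw [map_mul, map_pow, rG1, hP.red₁, one_pow, one_mul]
  · rw [map_mul, map_pow, rG2, hP.red₂, one_pow, one_mul]
  · rw [map_mul, mul_assoc, ← hψ']
    have hgd : g • (n₁ : F) - g • (n₂ : F) =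
        algebraMap K F (SemilinearAut.baseAut g c) * g • (ψ : F) := by
      rw [← smul_sub, hP.eq, smul_mul', SemilinearAut.smul_algebraMap]
    have hgeo := geom_sum₂_mul (n₁ : F) (n₂ : F) m
    have hcκ : algebraMap K F c * algebraMap K F (SemilinearAut.baseAut g c * c⁻¹) =
        algebraMap K F (SemilinearAut.baseAut g c) := by
      rw [← map_mul]
      congr 1
      field_simp
    change g • (n₁ : F) * (n₁ : F) ^ m - g • (n₂ : F) * (n₂ : F) ^ m =
      algebraMap K F c * (algebraMap K F (SemilinearAut.baseAut g c * c⁻¹) * g • (ψ : F) *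
        (n₁ : F) ^ m + g • (n₂ : F) * (ψ : F) *
          ((∑ i ∈ Finset.range m, n₁ ^ i * n₂ ^ (m - 1 - i) : T.O) : F))
    have hsum : ((∑ i ∈ Finset.range m, n₁ ^ i * n₂ ^ (m - 1 - i) : T.O) : F) =
        ∑ i ∈ Finset.range m, (n₁ : F) ^ i * (n₂ : F) ^ (m - 1 - i) := by
      rw [← Subring.coe_subtype, map_sum]
      rfl
    rw [hsum]
    have h1 : g • (n₁ : F) = g • (n₂ : F) +
        algebraMap K F (SemilinearAut.baseAut g c) * g • (ψ : F) := by
      rw [← hgd]; ring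
    have h2 : (n₁ : F) ^ m = (n₂ : F) ^ m + (∑ i ∈ Finset.range m,
        (n₁ : F) ^ i * (n₂ : F) ^ (m - 1 - i)) * (algebraMap K F c * (ψ : F)) := by
      rw [← hP.eq, hgeo]; ring
    rw [mul_add, ← mul_assoc, ← mul_assoc, hcκ, h1]
    generalize (∑ i ∈ Finset.range m, (n₁ : F) ^ i * (n₂ : F) ^ (m - 1 - i)) = Sg at h2 ⊢
    have h3 : (g • (n₂ : F) + algebraMap K F (SemilinearAut.baseAut g c) * g • (ψ : F)) *
        (n₁ : F) ^ m - g • (n₂ : F) * (n₂ : F) ^ m =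
        algebraMap K F (SemilinearAut.baseAut g c) * g • (ψ : F) * (n₁ : F) ^ m +
          g • (n₂ : F) * ((n₁ : F) ^ m - (n₂ : F) ^ m) := by ring
    rw [h3]
    have h4 : (n₁ : F) ^ m - (n₂ : F) ^ m = Sg * (algebraMap K F c * (ψ : F)) := by
      rw [h2]; ring
    rw [h4]
    ring
  · rw [map_mul]
    have hvc : 0 < T.v c := by
      rw [pos_iff_ne_zero]
      exact (Valuation.ne_zero_iff _).2 hc
    calc T.v c * T.v π < T.v c * 1 := mul_lt_mul_of_pos_left hπ hvc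
      _ = T.v c := mul_one _

/-- `g(c) ≡ e c` for every `c` with `|c| = |lam|` -/
theorem v_baseAut_sub_lt {g : SemilinearAut K F} (hg : IsCompat 𝒩 g 1) {lam c : K} {e : ℕ}
    (hlam : lam ≠ 0) (hge : T.v (SemilinearAut.baseAut g lam - (e : K) * lam) < T.v lam)
    (hc : T.v c = T.v lam) : T.v (SemilinearAut.baseAut g c - (e : K) * c) < T.v c := by
  have hvlam : T.v lam ≠ 0 := (Valuation.ne_zero_iff _).2 hlam
  have hvpos : 0 < T.v lam := pos_iff_ne_zero.2 hvlam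
  -- `υ := c / lam` is a unit
  have hυ1 : T.v (c * lam⁻¹) = 1 := by
    rw [map_mul, map_inv₀, hc, mul_inv_cancel₀ hvlam]
  have hυ : c * lam⁻¹ ∈ T.A := T.v_le_one_iff.1 hυ1.le
  have hcυ : c = lam * (c * lam⁻¹) := by field_simp
  set υ : K := c * lam⁻¹ with hυdef
  -- `g υ ∈ A`, `g υ ≡ υ`
  have hmem := hg.mem₁ ⟨algebraMap K F υ, hυ⟩
  have hred := hg.red₁ ⟨algebraMap K F υ, hυ⟩
  rw [one_smul] at hred
  have hgυ' : g • (algebraMap K F υ) = algebraMap K F (SemilinearAut.baseAut g υ) :=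
    SemilinearAut.smul_algebraMap g υ
  have hgυ : SemilinearAut.baseAut g υ ∈ T.A := by
    change algebraMap K F (SemilinearAut.baseAut g υ) ∈ T.R₁.O
    rw [← hgυ']
    exact hmem
  have hδ : SemilinearAut.baseAut g υ - υ ∈ T.A := T.A.sub_mem hgυ hυ
  have hδ0 : T.R₁.red ⟨algebraMap K F (SemilinearAut.baseAut g υ - υ), hδ⟩ = 0 := by
    have e1 : (⟨algebraMap K F (SemilinearAut.baseAut g υ - υ), hδ⟩ : T.R₁.O) =
        ⟨g • (algebraMap K F υ), hmem⟩ - ⟨algebraMap K F υ, hυ⟩ := by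
      apply Subtype.ext
      change algebraMap K F (SemilinearAut.baseAut g υ - υ) =
        g • (algebraMap K F υ) - algebraMap K F υ
      rw [map_sub, hgυ']
    rw [e1, map_sub, hred, sub_self]
  have hδlt : T.v (SemilinearAut.baseAut g υ - υ) < 1 := T.tw_v_lt_one_of_red hδ hδ0
  have hsplit : SemilinearAut.baseAut g c - (e : K) * c =
      (SemilinearAut.baseAut g lam - (e : K) * lam) * SemilinearAut.baseAut g υ +
        (e : K) * lam * (SemilinearAut.baseAut g υ - υ) := by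
    conv_lhs => rw [hcυ]
    rw [map_mul]
    ring
  have he : T.v (e : K) ≤ 1 := T.v_le_one_iff.2 (natCast_mem T.A e)
  rw [hsplit, hc]
  refine lt_of_le_of_lt (T.v.map_add _ _) (max_lt ?_ ?_)
  · rw [map_mul]
    calc T.v (SemilinearAut.baseAut g lam - (e : K) * lam) * T.v (SemilinearAut.baseAut g υ)
        ≤ T.v (SemilinearAut.baseAut g lam - (e : K) * lam) * 1 :=
          mul_le_mul_right (T.v_le_one_iff.2 hgυ) _
      _ = T.v (SemilinearAut.baseAut g lam - (e : K) * lam) := mul_one _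
      _ < T.v lam := hge
  · rw [map_mul, map_mul]
    calc T.v (e : K) * T.v lam * T.v (SemilinearAut.baseAut g υ - υ)
        ≤ 1 * T.v lam * T.v (SemilinearAut.baseAut g υ - υ) :=
          mul_le_mul_left (mul_le_mul_left he _) _
      _ = T.v lam * T.v (SemilinearAut.baseAut g υ - υ) := by rw [one_mul]
      _ < T.v lam * 1 := mul_lt_mul_of_pos_left hδlt hvpos
      _ = T.v lam := mul_one _

end Fermat.Agent.SS
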