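import Fermat.Agent.SS.H1.Tors
import Fermat.Agent.SS.H1.New
import Fermat.Agent.SS.H1.Depth
import Fermat.Agent.SS.H1.Twist

/-!
# SS / H1, part 4 : the abstract (NEW-p)

* `IsNew 𝒩 D` : for every pair `(n₁, n₂, ψ, c)` of `D`, `0 < |c| < 1`, both components of `red ψ`
  split.  (Concrete side: follows from `pushA [D] = pushB [D] = 0`.)
* `IsPair.v_pow_eq` : for a normal form of a new divisor, `|c| ^ (p - 1) = |p|`  ((L5) + (L6)).
* (L7) `IsPair.smul_mul_pow` : `n_i'' := g(n_i) n_i ^ m` is a pair for `D'' = g D + m D` at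
  `((m + 1) a, (m + 1) b)`, and if `g(c) / c ≡ e`, `p ∣ e + m`, then `n₁'' - n₂'' = c π ψ''`, `|π| < 1` :
  `n₁'' - n₂'' = g(c) g(ψ) n₁ ^ m + g(n₂) c ψ ∑_{i < m} n₁ ^ i n₂ ^ (m - 1 - i)`; divided by `c` it
  reduces to `(e + m) red ψ = 0`.
* (L8) `isPrincipal_smul_add`, `smul_eq_nsmul_of_isNew`.
-/

set_option autoImplicit false
set_option linter.unusedSectionVars false

open AlgebraicCurve

namespace Fermat.Agent.SS

open Fermat.Agent.RED Fermat.Agent.S24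

variable {K F k Fb : Type*} [Field K] [Field F] [Algebra K F] [Field k] [Field Fb] [Algebra k Fb]
  [IsAlgClosed K] [IsAlgClosed k] {x : F} {t : Fb}

/-- the divisor `D` is "new": its first order invariant dies on both components. -/
def IsNew {T : TwoRed K F k Fb} (𝒩 : NodalData T) (D : Divisor K F) : Prop :=
  ∀ (a b : ℕ) (n₁ n₂ ψ : T.O) (c : K), IsPair 𝒩 D a b n₁ n₂ ψ c → c ≠ 0 → T.v c < 1 →
    𝒩.Splits₁ (T.red ψ).1 ∧ 𝒩.Splits₂ (T.red ψ).2

variable {T : TwoRed K F k Fb} {𝒩 : NodalData T}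

/-- type II : `|c| ^ (p - 1) = |p|` -/
theorem IsPair.v_pow_eq (hx : IsSepParam K x) (hb : IsSepParam k t) {n : ℕ} (hn : 𝒩.IsLarge n)
    {p : ℕ} (hp : p.Prime) [CharP k p] {D : Divisor K F} {f : T.O} (h : IsOne T p D f)
    (hnew : IsNew 𝒩 D) {a b : ℕ} (hab : n ≤ a + b) {n₁ n₂ ψ : T.O} {c : K}
    (hP : IsPair 𝒩 D a b n₁ n₂ ψ c) (hc : c ≠ 0) (hc1 : T.v c < 1)
    (hψ : T.red ψ ∉ 𝒩.Msub 1 a 0 ⊔ 𝒩.Msub 1 0 b) : T.v c ^ (p - 1) = T.v (p : K) := by
  refine le_antisymm ?_ (hP.v_p_le hx hb hn hp h hab hc hc1 hψ)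
  by_contra hlt
  rw [not_le] at hlt
  obtain ⟨s₁, s₂⟩ := hnew a b n₁ n₂ ψ c hP hc hc1
  exact hψ (𝒩.mem_sup_of_pow_mem hx hb hp (hP.red_mem hx hb hn hp h hab hc) s₁ s₂
    (hP.pow_mem_of_v_lt hx hb hp h hc hc1 hlt))

/-- (L8) **abstract (NEW-p)**, divisor form. -/
theorem isPrincipal_smul_add (hx : IsSepParam K x) (hb : IsSepParam k t)
    {p : ℕ} (hp : p.Prime) [CharP k p] {g : SemilinearAut K F} (hg : IsCompat 𝒩 g 1)
    (hgP' : g • 𝒩.P' = 𝒩.P') {lam : K} (hlam : T.v lam ^ (p - 1) = T.v (p : K))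
    (hp0 : (p : K) ≠ 0) {e : ℕ}
    (hge : T.v (SemilinearAut.baseAut g lam - (e : K) * lam) < T.v lam)
    {D : Divisor K F} {f : T.O} (h : IsOne T p D f) (hD : ¬ D.IsPrincipal) (hnew : IsNew 𝒩 D)
    (hnew' : IsNew 𝒩 (g • D + (e * (p - 1)) • D)) :
    (g • D + (e * (p - 1)) • D).IsPrincipal := by
  by_contra hD''
  obtain ⟨n, hn⟩ := 𝒩.exists_isLarge hx hb
  have hp1 : p - 1 ≠ 0 := by have := hp.two_le; omega
  have h'' : IsOne T p (g • D + (e * (p - 1)) • D) (⟨g • (f : F), hg.mem f⟩ * f ^ (e * (p - 1))) :=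
    (h.smul hg).add (h.nsmul _)
  have hlam0 : lam ≠ 0 := by
    rintro rfl
    rw [map_zero, zero_pow hp1] at hlam
    exact hp0 ((Valuation.zero_iff _).1 hlam.symm)
  have hem : p ∣ e + e * (p - 1) := by
    refine ⟨e, ?_⟩
    obtain ⟨q, rfl⟩ : ∃ q, p = q + 1 := ⟨p - 1, by omega⟩
    simp only [Nat.add_sub_cancel]
    ring
  obtain ⟨n₁, n₂, ψ, c, hP, hc, hc1, hψ⟩ := 𝒩.exists_isPair hx hb hn hp h hD le_rfl le_rfl
  have hvc : T.v c = T.v lam :=
    (pow_left_inj₀ zero_le zero_le hp1).1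
      ((hP.v_pow_eq hx hb hn hp h hnew (by omega) hc hc1 hψ).trans hlam.symm)
  obtain ⟨n₁', n₂', ψ', c', hP', hc'⟩ :=
    hP.smul_mul_pow hg hgP' hc hc1 (v_baseAut_sub_lt hg hlam0 hge hvc) hem
  have hle : n ≤ (e * (p - 1) + 1) * n := Nat.le_mul_of_pos_left n (Nat.succ_pos _)
  obtain ⟨N₁, N₂, Ψ, C, hQ, hC, hC1, hΨ⟩ := 𝒩.exists_isPair hx hb hn hp h'' hD'' hle hle
  have hvC : T.v C = T.v lam :=
    (pow_left_inj₀ zero_le zero_le hp1).1
      ((hQ.v_pow_eq hx hb hn hp h'' hnew' (by omega) hC hC1 hΨ).trans hlam.symm)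
  have h3 := (hQ.v_le hx hb hn hp h'' hD'' hle hle hC hΨ hP').trans_lt hc'
  rw [hvC, hvc] at h3
  exact lt_irrefl _ h3

/-- the class `y` is new -/
def IsNewClass {T : TwoRed K F k Fb} (𝒩 : NodalData T) (y : Pic0 K F) : Prop :=
  ∀ D : Divisor.degZero (K := K) (F := F), Pic0.mk D = y → IsNew 𝒩 (D : Divisor K F)

/-- **abstract (NEW-p)** : a compatible semilinear automorphism `g` inducing the identity on the
special fibre, with `g(lam) ≡ e lam`, `|lam| ^ (p - 1) = |p|`, acts by `e` on the toric new classes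
killed by `p = char k`. -/
theorem smul_eq_nsmul_of_isNew (hx : IsSepParam K x) (hb : IsSepParam k t)
    {p : ℕ} (hp : p.Prime) [CharP k p] {g : SemilinearAut K F} (hg : IsCompat 𝒩 g 1)
    (hgP' : g • 𝒩.P' = 𝒩.P') {lam : K} (hlam : T.v lam ^ (p - 1) = T.v (p : K))
    (hp0 : (p : K) ≠ 0) {e : ℕ}
    (hge : T.v (SemilinearAut.baseAut g lam - (e : K) * lam) < T.v lam)
    {y : Pic0 K F} (hy : IsToric T p y) (hnew : IsNewClass 𝒩 y)
    (hnew' : IsNewClass 𝒩 (g • y + (e * (p - 1)) • y)) : g • y = e • y := by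
  obtain ⟨D, f, rfl, h⟩ := hy.exists_isOne hx
  have hz : ∀ E : Divisor.degZero (K := K) (F := F), (E : Divisor K F).IsPrincipal →
      Pic0.mk E = 0 := fun E hE =>
    (pic0_mk_eq_mk_of_isPrincipal (D' := 0) (by simpa using hE)).trans rfl
  have hpy : p • Pic0.mk D = 0 := by
    rw [← pic0_mk_nsmul]
    refine hz _ ⟨(f : F), h.ne_zero, fun v => ?_⟩
    rw [← h.ord v]
    simp
  have hkey : g • Pic0.mk D + (e * (p - 1)) • Pic0.mk D = 0 := by
    by_cases hD : (D : Divisor K F).IsPrincipal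
    · rw [hz D hD, smul_zero (e * (p - 1)), add_zero]
      exact smul_zero (A := Pic0 K F) g
    · have e1 : g • Pic0.mk D + (e * (p - 1)) • Pic0.mk D =
          Pic0.mk (SemilinearAut.degZeroSMulHom g D + (e * (p - 1)) • D) := rfl
      rw [e1]
      exact hz _ (isPrincipal_smul_add hx hb hp hg hgP' hlam hp0 hge h hD (hnew D rfl)
        (hnew' _ e1.symm))
  have hsum : (e * (p - 1)) • Pic0.mk D + e • Pic0.mk D = 0 := by
    rw [← add_smul]
    have : e * (p - 1) + e = e * p := by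
      obtain ⟨q, rfl⟩ : ∃ q, p = q + 1 := ⟨p - 1, by have := hp.two_le; omega⟩
      simp only [Nat.add_sub_cancel]
      ring
    rw [this, mul_smul, hpy, smul_zero]
  have := hkey.trans hsum.symm
  rw [add_comm] at this
  exact add_left_cancel this

end Fermat.Agent.SS
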