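import Fermat.Agent.SS.H1.Sat

/-!
# SS / H1, part 1 : the normal form of a divisor with `IsOne T p D f`, `char k = p`

`V₁ = L(D + a P)`, `V₂ = L(D + b P')`, `M₁ = M 1 a 0`, `M₂ = M 1 0 b`.

* (L1) `W_eq_Msub_one` : `W D a b = M 1 a b` (`exists_zeta`; `ζ ^ p = 1 → ζ = 1` in char. `p`).
* `IsPair 𝒩 D a b n₁ n₂ ψ c` : `n₁ ∈ V₁ ∩ O`, `n₂ ∈ V₂ ∩ O`, `red n_i = 1`, `n₁ - n₂ = c ψ`.
* (L3) `exists_isPair` : `D` not principal ⇒ there is a pair with `0 < |c| < 1`,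
  `red ψ ∉ M₁ + M₂`.
  PROOF. `V₁ ⊓ V₂ = L(D) = 0` (`mem_L_of_mem_of_mem`, `IsOne.isPrincipal_of_mem_L` with `i = 1`),
  so `dim redSub (V₁ ⊔ V₂) = d₁ + d₂` (`finrank_redSub_eq`), whereas
  `dim (M₁ ⊔ M₂) = d₁ + d₂ - dim (M₁ ⊓ M₂) = d₁ + d₂ - 1` (`M_inter`, `finrank_Msub_zero`, (L1)).
  Take `w ∈ (V₁ ⊔ V₂) ∩ O`, `red w ∉ M₁ ⊔ M₂`, `w = v₁ - v₂`, `v_i ∈ V_i`.  `v₁ ≠ 0`; let
  `c' v₁ ∈ O` with non zero reduction (`exists_scale`).  If `c'⁻¹ ∈ A` then `v₁ ∈ O`, `v₂ ∈ O` and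
  `red w ∈ M₁ + M₂`.  So `|c'| < 1`, `u₁ := c' v₁`, `u₂ := c' v₂ = u₁ - c' w ∈ O`,
  `red u₁ = red u₂ ∈ M₁ ∩ M₂ = k`, `= κ̄ ≠ 0`.  `n_i := u_i / κ`, `c := c' / κ`, `ψ := w`.
-/

set_option autoImplicit false
set_option linter.unusedSectionVars false

open AlgebraicCurve

namespace Fermat.Agent.SS

open Fermat.Agent.RED Fermat.Agent.S24

variable {K F k Fb : Type*} [Field K] [Field F] [Algebra K F] [Field k] [Field Fb] [Algebra k Fb]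
  [IsAlgClosed K] [IsAlgClosed k] {x : F} {t : Fb}

/-- two integral sections of `O(D)` over the two charts, both reducing to `1`, and their
difference. -/
structure IsPair {T : TwoRed K F k Fb} (𝒩 : NodalData T) (D : Divisor K F) (a b : ℕ)
    (n₁ n₂ ψ : T.O) (c : K) : Prop where
  mem₁ : (n₁ : F) ∈ riemannRochSpace (D + 𝒩.X a 0)
  mem₂ : (n₂ : F) ∈ riemannRochSpace (D + 𝒩.X 0 b)
  red₁ : T.red n₁ = 1
  red₂ : T.red n₂ = 1
  eq : (n₁ : F) - (n₂ : F) = algebraMap K F c * (ψ : F)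

namespace NodalData

variable {T : TwoRed K F k Fb} (𝒩 : NodalData T)

/-- (L1) -/
theorem W_eq_Msub_one (hx : IsSepParam K x) (hb : IsSepParam k t) {n : ℕ} (hn : 𝒩.IsLarge n)
    {p : ℕ} (hp : p.Prime) [CharP k p] {D : Divisor K F} {f : T.O} (h : IsOne T p D f) {a b : ℕ}
    (hab : n ≤ a + b) : 𝒩.W D a b = 𝒩.Msub 1 a b := by
  obtain ⟨ζ, hζ, hW⟩ := 𝒩.exists_zeta hx hb hn hp.ne_zero h
  have h1 : ζ = 1 := by
    funext s
    have := Fact.mk hp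
    apply frobenius_inj k p
    simp [frobenius_def, hζ s]
  subst h1
  exact SetLike.coe_injective (hW a b hab)

/-- `L(D) = 0` -/
theorem eq_zero_of_mem_L (hx : IsSepParam K x) {p : ℕ} (hp : p.Prime) {D : Divisor K F} {f : T.O}
    (h : IsOne T p D f) (hD : ¬ D.IsPrincipal) {w : F} (hw : w ∈ riemannRochSpace D) : w = 0 := by
  by_contra hw0
  exact hD (h.isPrincipal_of_mem_L hx hp (i := 1) one_pos hp.one_lt (by rwa [one_smul]) hw0)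

/-- (L3) **the normal form** -/
theorem exists_isPair (hx : IsSepParam K x) (hb : IsSepParam k t) {n : ℕ} (hn : 𝒩.IsLarge n)
    {p : ℕ} (hp : p.Prime) [CharP k p] {D : Divisor K F} {f : T.O} (h : IsOne T p D f)
    (hD : ¬ D.IsPrincipal) {a b : ℕ} (ha : n ≤ a) (hb' : n ≤ b) :
    ∃ (n₁ n₂ ψ : T.O) (c : K), IsPair 𝒩 D a b n₁ n₂ ψ c ∧ c ≠ 0 ∧ T.v c < 1 ∧
      T.red ψ ∉ 𝒩.Msub 1 a 0 ⊔ 𝒩.Msub 1 0 b := by
  set V₁ := riemannRochSpace (D + 𝒩.X a 0) with hV₁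
  set V₂ := riemannRochSpace (D + 𝒩.X 0 b) with hV₂
  have : FiniteDimensional K V₁ := hx.finite_L _
  have : FiniteDimensional K V₂ := hx.finite_L _
  have := 𝒩.finite_Msub hb 1 a 0
  have := 𝒩.finite_Msub hb 1 0 b
  have hM₁ : T.redSub V₁ = 𝒩.Msub 1 a 0 := 𝒩.W_eq_Msub_one hx hb hn hp h (by omega)
  have hM₂ : T.redSub V₂ = 𝒩.Msub 1 0 b := 𝒩.W_eq_Msub_one hx hb hn hp h (by omega)
  have hbot : V₁ ⊓ V₂ = ⊥ := by
    rw [eq_bot_iff]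
    intro w hw
    exact (Submodule.mem_bot K).2
      (eq_zero_of_mem_L hx hp h hD (𝒩.mem_L_of_mem_of_mem hw.1 hw.2))
  have hinf : 𝒩.Msub 1 a 0 ⊓ 𝒩.Msub 1 0 b = 𝒩.Msub 1 0 0 := by
    apply SetLike.coe_injective
    have := 𝒩.M_inter 1 a 0 0 b
    rw [Nat.min_zero, Nat.zero_min] at this
    exact this
  -- the dimension count
  have e1 := Submodule.finrank_sup_add_finrank_inf_eq V₁ V₂
  have e2 := Submodule.finrank_sup_add_finrank_inf_eq (𝒩.Msub 1 a 0) (𝒩.Msub 1 0 b)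
  rw [hbot, finrank_bot, add_zero] at e1
  rw [hinf, 𝒩.finrank_Msub_zero hx hb, ← hM₁, ← hM₂, T.finrank_redSub_eq 𝒩.on2 V₁,
    T.finrank_redSub_eq 𝒩.on2 V₂, hM₁, hM₂] at e2
  have e3 := T.finrank_redSub_eq 𝒩.on2 (V₁ ⊔ V₂)
  have hnle : ¬ T.redSub (V₁ ⊔ V₂) ≤ 𝒩.Msub 1 a 0 ⊔ 𝒩.Msub 1 0 b := by
    intro hle
    have := Submodule.finrank_mono hle
    omega
  obtain ⟨w', ⟨w, hwV, rfl⟩, hw'⟩ := SetLike.not_le_iff_exists.1 hnle
  obtain ⟨v₁, hv₁, v₂, hv₂, hw⟩ := Submodule.mem_sup.1 hwV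
  have hv₁0 : v₁ ≠ 0 := by
    rintro rfl
    rw [zero_add] at hw
    apply hw'
    apply Submodule.mem_sup_right
    rw [← hM₂]
    exact ⟨w, hw ▸ hv₂, rfl⟩
  obtain ⟨c', hc'O, hc'0, hc'r⟩ := T.exists_scale hv₁0
  have hc'inv : c'⁻¹ ∉ T.A := by
    intro hA
    have m1 : v₁ ∈ T.O := by
      have := T.const_mul_mem_O hA hc'O
      rwa [← mul_assoc, ← map_mul, inv_mul_cancel₀ hc'0, map_one, one_mul] at this
    have m2 : v₂ ∈ T.O := by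
      have : v₂ = (w : F) - v₁ := by rw [← hw]; ring
      rw [this]
      exact T.O.sub_mem w.2 m1
    apply hw'
    have : w = ⟨v₁, m1⟩ + ⟨v₂, m2⟩ := Subtype.ext hw.symm
    rw [this, map_add]
    refine Submodule.add_mem_sup ?_ ?_
    · rw [← hM₁]; exact ⟨_, hv₁, rfl⟩
    · rw [← hM₂]; exact ⟨_, hv₂, rfl⟩
  have hc'A : c' ∈ T.A := T.mem_A_of_inv_notMem hc'inv
  have hc'v : T.v c' < 1 := (T.v_lt_one_iff hc'0).2 ⟨hc'A, hc'inv⟩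
  set u₁ : T.O := ⟨_, hc'O⟩ with hu₁
  set cw : T.O := ⟨_, T.const_mul_mem_O hc'A w.2⟩ with hcw
  have hcw0 : T.red cw = 0 := T.red_eq_zero_of_v_lt hc'v w cw rfl
  set u₂ : T.O := u₁ - cw with hu₂
  have hu₁V : (u₁ : F) ∈ V₁ := by
    have := V₁.smul_mem c' hv₁
    rwa [Algebra.smul_def] at this
  have hu₂V : (u₂ : F) ∈ V₂ := by
    have := V₂.smul_mem (-c') hv₂
    rw [Algebra.smul_def] at this
    have e : (u₂ : F) = algebraMap K F (-c') * v₂ := by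
      show algebraMap K F c' * v₁ - algebraMap K F c' * (w : F) = _
      rw [← hw, map_neg]; ring
    rwa [e]
  have hr : T.red u₂ = T.red u₁ := by rw [hu₂, map_sub, hcw0, sub_zero]
  have hmem0 : T.red u₁ ∈ 𝒩.Msub 1 0 0 := by
    rw [← hinf]
    refine ⟨?_, ?_⟩
    · rw [← hM₁]; exact ⟨u₁, hu₁V, rfl⟩
    · rw [← hM₂, ← hr]; exact ⟨u₂, hu₂V, rfl⟩
  obtain ⟨κ, hκ⟩ := (𝒩.mem_M_zero_iff hx hb).1 hmem0
  have hκ0 : κ ≠ 0 := by
    rintro rfl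
    apply hc'r
    rw [hκ, map_zero]; rfl
  obtain ⟨l, hl, hlr⟩ := T.R₁.exists_const κ⁻¹
  have hlA : l ∈ T.A := hl
  set L : T.O := ⟨algebraMap K F l, T.algebraMap_mem_O hlA⟩ with hL
  have hLr : T.red L = (algebraMap k Fb κ⁻¹, algebraMap k Fb κ⁻¹) :=
    Prod.ext hlr ((T.const_red l hl ((T.const_mem l).1 hl)).symm.trans hlr)
  have hl0 : l ≠ 0 := by
    rintro rfl
    have : L = 0 := Subtype.ext (by simp [hL])
    rw [this, map_zero] at hLr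
    have h1 : (0 : Fb) = algebraMap k Fb κ⁻¹ := congrArg Prod.fst hLr
    exact inv_ne_zero hκ0 ((map_eq_zero (algebraMap k Fb)).1 h1.symm)
  have hone : T.red (L * u₁) = 1 := by
    rw [map_mul, hLr, hκ]
    apply Prod.ext <;> simp [hκ0]
  refine ⟨L * u₁, L * u₂, w, l * c', ⟨?_, ?_, hone, ?_, ?_⟩, mul_ne_zero hl0 hc'0, ?_, hw'⟩
  · have := V₁.smul_mem l hu₁V
    rwa [Algebra.smul_def] at this
  · have := V₂.smul_mem l hu₂V
    rwa [Algebra.smul_def] at this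
  · rw [map_mul, hr, ← map_mul, hone]
  · show algebraMap K F l * (algebraMap K F c' * v₁) -
      algebraMap K F l * (algebraMap K F c' * v₁ - algebraMap K F c' * (w : F)) = _
    rw [map_mul]; ring
  · rw [map_mul]
    exact lt_of_le_of_lt (mul_le_of_le_one_left zero_le (T.v_le_one_iff.2 hlA)) hc'v

end NodalData

namespace IsPair

variable {T : TwoRed K F k Fb} {𝒩 : NodalData T}

/-- `ψ ∈ L(D + a P + b P')` -/
theorem mem_L {D : Divisor K F} {a b : ℕ} {n₁ n₂ ψ : T.O} {c : K}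
    (h : IsPair 𝒩 D a b n₁ n₂ ψ c) (hc : c ≠ 0) :
    (ψ : F) ∈ riemannRochSpace (D + 𝒩.X a b) := by
  have e : (ψ : F) = c⁻¹ • ((n₁ : F) - n₂) := by
    rw [h.eq, Algebra.smul_def, map_inv₀, ← mul_assoc, inv_mul_cancel₀ (by simpa using hc), one_mul]
  rw [e]
  exact Submodule.smul_mem _ _ (Submodule.sub_mem _
    (𝒩.L_X_mono D le_rfl (Nat.zero_le _) h.mem₁) (𝒩.L_X_mono D (Nat.zero_le _) le_rfl h.mem₂))

theorem red_mem (hx : IsSepParam K x) (hb : IsSepParam k t) {n : ℕ} (hn : 𝒩.IsLarge n)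
    {p : ℕ} (hp : p.Prime) [CharP k p] {D : Divisor K F} {f : T.O} (h : IsOne T p D f)
    {a b : ℕ} (hab : n ≤ a + b) {n₁ n₂ ψ : T.O} {c : K}
    (hP : IsPair 𝒩 D a b n₁ n₂ ψ c) (hc : c ≠ 0) : T.red ψ ∈ 𝒩.Msub 1 a b := by
  rw [← 𝒩.W_eq_Msub_one hx hb hn hp h hab]
  exact ⟨ψ, hP.mem_L hc, rfl⟩

end IsPair

end Fermat.Agent.SS
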