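import Fermat.Agent.SS.Abs.Main

/-!
# SS / H1 : the `H¹(Z, O)`-lattice route to (NEW-p), part 0 : saturation

Notation of `SS/Abs`.  `T : TwoRed K F k Fb`, `𝒩 : NodalData T`.

* `TwoRed.redSub_sup` (SAT) : `redSub (V₁ ⊔ V₂) = redSub V₁ ⊔ redSub V₂` as soon as
  `dim (redSub V₁ ⊓ redSub V₂) ≤ dim (V₁ ⊓ V₂)` (dimension count, `on2`).
* `NodalData.mem_M_zero_iff` : `M 1 0 0 = k`.
* `NodalData.mem_sup_shrink` (SHRINK).
* `NodalData.red_mem_sup_of_sub` : (SAT) for `L(a P)`, `L(b P')`.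
* valuation API : `TwoRed.v`.
-/

set_option autoImplicit false
set_option linter.unusedSectionVars false

open AlgebraicCurve

namespace Fermat.Agent.SS

open Fermat.Agent.RED Fermat.Agent.S24

variable {K F k Fb : Type*} [Field K] [Field F] [Algebra K F] [Field k] [Field Fb] [Algebra k Fb]
  [IsAlgClosed K] [IsAlgClosed k] {x : F} {t : Fb}

namespace TwoRed

variable (T : TwoRed K F k Fb)

/-- the valuation of the constant field -/
noncomputable abbrev v : Valuation K T.A.ValueGroup := T.A.valuation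

theorem v_le_one_iff {c : K} : T.v c ≤ 1 ↔ c ∈ T.A := T.A.valuation_le_one_iff c

theorem v_lt_one_iff {c : K} (hc : c ≠ 0) : T.v c < 1 ↔ c ∈ T.A ∧ c⁻¹ ∉ T.A := by
  have h0 : T.v c ≠ 0 := (Valuation.ne_zero_iff _).2 hc
  rw [← T.v_le_one_iff, ← T.v_le_one_iff, map_inv₀, not_le]
  constructor
  · intro h
    exact ⟨h.le, (one_lt_inv₀ (zero_lt_iff.2 h0)).2 h⟩
  · rintro ⟨-, h⟩
    exact (one_lt_inv₀ (zero_lt_iff.2 h0)).1 h

/-- `|a| ≤ |b|`, `b ≠ 0` : `a / b ∈ A` -/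
theorem div_mem_A_of_v_le {a b : K} (h : T.v a ≤ T.v b) : a * b⁻¹ ∈ T.A := by
  rcases eq_or_ne b 0 with rfl | hb
  · simp
  have h0 : T.v b ≠ 0 := (Valuation.ne_zero_iff _).2 hb
  rw [← T.v_le_one_iff, map_mul, map_inv₀]
  exact mul_inv_le_one_of_le₀ h zero_le

theorem v_div_lt_one {a b : K} (h : T.v a < T.v b) : T.v (a * b⁻¹) < 1 := by
  have h0 : 0 < T.v b := lt_of_le_of_lt zero_le h
  rw [map_mul, map_inv₀]
  exact (mul_inv_lt_iff₀ h0).2 (by rwa [one_mul])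

/-- multiplication by a small constant kills the reduction -/
theorem red_eq_zero_of_v_lt {c : K} (hc : T.v c < 1) (u z : T.O)
    (h : (z : F) = algebraMap K F c * (u : F)) : T.red z = 0 := by
  rcases eq_or_ne c 0 with rfl | hc0
  · have : z = 0 := Subtype.ext (by simpa using h)
    rw [this, map_zero]
  · obtain ⟨h1, h2⟩ := (T.v_lt_one_iff hc0).1 hc
    exact T.red_eq_zero_of_eq_mul h1 h2 z u.2 h

/-- the reduction of a constant -/
theorem exists_red_const' {c : K} (hc : T.v c ≤ 1) :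
    ∃ (cb : k), ∀ (u z : T.O), (z : F) = algebraMap K F c * (u : F) → T.red z = cb • T.red u := by
  have hc' := T.v_le_one_iff.1 hc
  obtain ⟨a, ha⟩ := T.exists_red_const hc'
  refine ⟨a, fun u z h => ?_⟩
  have : z = ⟨algebraMap K F c, T.algebraMap_mem_O hc'⟩ * u := Subtype.ext h
  rw [this, map_mul, ha]
  apply Prod.ext <;> simp [Algebra.smul_def]

/-- an element with reduction `0` is a small multiple of an element of `O` -/
theorem exists_eq_mul_of_red_eq_zero {u : T.O} (hu : T.red u = 0) :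
    ∃ (π : K) (u' : T.O), T.v π < 1 ∧ (u : F) = algebraMap K F π * (u' : F) := by
  obtain ⟨π, u', hπ, h⟩ := T.exists_eq_smul_of_red_eq_zero hu
  refine ⟨π, u', ?_, h⟩
  rcases eq_or_ne π 0 with rfl | h0
  · simp
  · have h1 := hπ.resolve_left h0
    exact (T.v_lt_one_iff h0).2 ⟨T.mem_A_of_inv_notMem h1, h1⟩

theorem redSub_mono {V V' : Submodule K F} (h : V ≤ V') : T.redSub V ≤ T.redSub V' := by
  rintro _ ⟨u, hu, rfl⟩
  exact ⟨u, h hu, rfl⟩

/-- dimensions are preserved by the reduction -/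
theorem finrank_redSub_eq
    (on2 : ∀ V : Submodule K F, FiniteDimensional K V →
      Module.finrank K V ≤ Module.finrank k (T.redSub V))
    (V : Submodule K F) [FiniteDimensional K V] :
    Module.finrank k (T.redSub V) = Module.finrank K V :=
  le_antisymm (T.finrank_redSub_le V) (on2 V inferInstance)

/-- **(SAT)** -/
theorem redSub_sup
    (on2 : ∀ V : Submodule K F, FiniteDimensional K V →
      Module.finrank K V ≤ Module.finrank k (T.redSub V))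
    (V₁ V₂ : Submodule K F) [FiniteDimensional K V₁] [FiniteDimensional K V₂]
    (h : Module.finrank k ↥(T.redSub V₁ ⊓ T.redSub V₂) ≤ Module.finrank K ↥(V₁ ⊓ V₂)) :
    T.redSub (V₁ ⊔ V₂) = T.redSub V₁ ⊔ T.redSub V₂ := by
  have := T.finite_redSub V₁
  have := T.finite_redSub V₂
  have := T.finite_redSub (V₁ ⊔ V₂)
  symm
  apply Submodule.eq_of_le_of_finrank_le
    (sup_le (T.redSub_mono le_sup_left) (T.redSub_mono le_sup_right))
  have e1 := Submodule.finrank_sup_add_finrank_inf_eq V₁ V₂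
  have e2 := Submodule.finrank_sup_add_finrank_inf_eq (T.redSub V₁) (T.redSub V₂)
  rw [T.finrank_redSub_eq on2 V₁, T.finrank_redSub_eq on2 V₂] at e2
  rw [T.finrank_redSub_eq on2 (V₁ ⊔ V₂)]
  omega

end TwoRed

namespace NodalData

variable {T : TwoRed K F k Fb} (𝒩 : NodalData T)

theorem sat_X₁_zero : 𝒩.X₁ 0 0 = 0 := by simp [X₁]

theorem sat_X₂_zero : 𝒩.X₂ 0 0 = 0 := by simp [X₂]

theorem sat_X_zero : 𝒩.X 0 0 = 0 := by simp [X]

/-- `M 1 0 0 = k` -/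
theorem mem_M_zero_iff (hx : IsSepParam K x) (hb : IsSepParam k t) {w : Fb × Fb} :
    w ∈ 𝒩.Msub 1 0 0 ↔ ∃ c : k, w = (algebraMap k Fb c, algebraMap k Fb c) := by
  constructor
  · rintro ⟨h1, h2, h3⟩
    rw [sat_X₁_zero, hb.L_zero, Submodule.mem_one] at h1
    rw [sat_X₂_zero, hb.L_zero, Submodule.mem_one] at h2
    obtain ⟨c₁, hc₁⟩ := h1
    obtain ⟨c₂, hc₂⟩ := h2
    obtain ⟨s⟩ := 𝒩.nonempty_S hx hb
    obtain ⟨c, e1, e2⟩ := h3 s
    rw [← hc₁] at e1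
    rw [← hc₂] at e2
    have e1' := e1.unique (HasVal.const c₁)
    have e2' := e2.unique (HasVal.const c₂)
    rw [Pi.one_apply, one_mul] at e1'
    refine ⟨c, Prod.ext ?_ ?_⟩
    · rw [← hc₁, e1']
    · rw [← hc₂, e2']
  · rintro ⟨c, rfl⟩
    have := (𝒩.Msub 1 0 0).smul_mem c (𝒩.one_mem_M 0 0)
    convert this using 1
    apply Prod.ext <;> simp [Algebra.smul_def]

theorem finrank_Msub_zero (hx : IsSepParam K x) (hb : IsSepParam k t) :
    Module.finrank k (𝒩.Msub 1 0 0) = 1 := by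
  have h : 𝒩.Msub 1 0 0 = Submodule.span k {(1 : Fb × Fb)} := by
    ext w
    rw [𝒩.mem_M_zero_iff hx hb, Submodule.mem_span_singleton]
    constructor
    · rintro ⟨c, rfl⟩
      exact ⟨c, by apply Prod.ext <;> simp [Algebra.smul_def]⟩
    · rintro ⟨c, rfl⟩
      exact ⟨c, by apply Prod.ext <;> simp [Algebra.smul_def]⟩
  rw [h]
  exact finrank_span_singleton one_ne_zero

/-- **(SHRINK)** -/
theorem mem_sup_shrink {a b a' b' : ℕ} {w : Fb × Fb} (hw : w ∈ 𝒩.Msub 1 a b)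
    (h : w ∈ 𝒩.Msub 1 a' 0 ⊔ 𝒩.Msub 1 0 b') : w ∈ 𝒩.Msub 1 a 0 ⊔ 𝒩.Msub 1 0 b := by
  obtain ⟨w₁, h₁, w₂, h₂, rfl⟩ := Submodule.mem_sup.1 h
  refine Submodule.mem_sup.2 ⟨w₁, ?_, w₂, ?_, rfl⟩
  · have e1 : w₁ ∈ 𝒩.Msub 1 a (max b b') := by
      have : w₁ = (w₁ + w₂) - w₂ := by abel
      rw [this]
      exact Submodule.sub_mem _ (𝒩.M_mono 1 le_rfl (le_max_left _ _) hw)
        (𝒩.M_mono 1 (Nat.zero_le _) (le_max_right _ _) h₂)
    have e2 : w₁ ∈ 𝒩.M 1 a (max b b') ∩ 𝒩.M 1 a' 0 := ⟨e1, h₁⟩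
    rw [M_inter] at e2
    exact 𝒩.M_mono 1 (min_le_left _ _) (by simp) e2
  · have e1 : w₂ ∈ 𝒩.Msub 1 (max a a') b := by
      have : w₂ = (w₁ + w₂) - w₁ := by abel
      rw [this]
      exact Submodule.sub_mem _ (𝒩.M_mono 1 (le_max_left _ _) le_rfl hw)
        (𝒩.M_mono 1 (le_max_right _ _) (Nat.zero_le _) h₁)
    have e2 : w₂ ∈ 𝒩.M 1 (max a a') b ∩ 𝒩.M 1 0 b' := ⟨e1, h₂⟩
    rw [M_inter] at e2
    exact 𝒩.M_mono 1 (by simp) (min_le_left _ _) e2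

/-- pole bounds + gluing -/
theorem redSub_le_Msub (a b : ℕ) : T.redSub (riemannRochSpace (𝒩.X a b)) ≤ 𝒩.Msub 1 a b := by
  rintro _ ⟨u, hu, rfl⟩
  obtain ⟨h1, h2⟩ := 𝒩.pole a b u hu
  refine ⟨h1, h2, fun s => ?_⟩
  obtain ⟨c, e1, e2⟩ := 𝒩.glue a b u hu s
  exact ⟨c, by rwa [Pi.one_apply, one_mul], e2⟩

/-- **(SAT)** for the two charts, `D = 0`. -/
theorem red_mem_sup_of_sub (hx : IsSepParam K x) (hb : IsSepParam k t) {a b : ℕ}
    (y₁ y₂ z : T.O) {c : K} (hc : c ≠ 0) (h₁ : (y₁ : F) ∈ riemannRochSpace (𝒩.X a 0))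
    (h₂ : (y₂ : F) ∈ riemannRochSpace (𝒩.X 0 b))
    (h : (y₁ : F) - y₂ = algebraMap K F c * (z : F)) :
    T.red z ∈ 𝒩.Msub 1 a 0 ⊔ 𝒩.Msub 1 0 b := by
  have := hx.finite_L (𝒩.X a 0)
  have := hx.finite_L (𝒩.X 0 b)
  have := 𝒩.finite_Msub hb 1 0 0
  have hz : (z : F) ∈ riemannRochSpace (𝒩.X a 0) ⊔ riemannRochSpace (𝒩.X 0 b) := by
    have e : (z : F) = c⁻¹ • ((y₁ : F) - y₂) := by
      rw [h, Algebra.smul_def, map_inv₀, ← mul_assoc, inv_mul_cancel₀ (by simpa using hc), one_mul]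
    rw [e]
    exact Submodule.smul_mem _ _ (Submodule.sub_mem _ (Submodule.mem_sup_left h₁)
      (Submodule.mem_sup_right h₂))
  have hle : T.redSub (riemannRochSpace (𝒩.X a 0)) ⊓ T.redSub (riemannRochSpace (𝒩.X 0 b)) ≤
      𝒩.Msub 1 0 0 := by
    intro w hw
    have e2 : w ∈ 𝒩.M 1 a 0 ∩ 𝒩.M 1 0 b := ⟨𝒩.redSub_le_Msub a 0 hw.1, 𝒩.redSub_le_Msub 0 b hw.2⟩
    rw [M_inter] at e2
    exact 𝒩.M_mono 1 (by simp) (by simp) e2
  have hdim : 1 ≤ Module.finrank K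
      ↥(riemannRochSpace (𝒩.X a 0) ⊓ riemannRochSpace (𝒩.X 0 b)) := by
    rw [Nat.succ_le_iff, Module.finrank_pos_iff_exists_ne_zero]
    have m1 : (1 : F) ∈ riemannRochSpace (𝒩.X a 0) :=
      L_mono (by rw [← 𝒩.sat_X_zero]; exact 𝒩.X_mono (Nat.zero_le _) le_rfl) one_mem_L_zero
    have m2 : (1 : F) ∈ riemannRochSpace (𝒩.X 0 b) :=
      L_mono (by rw [← 𝒩.sat_X_zero]; exact 𝒩.X_mono le_rfl (Nat.zero_le _)) one_mem_L_zero
    exact ⟨⟨1, m1, m2⟩, fun h0 => one_ne_zero (congrArg Subtype.val h0)⟩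
  have hsat := T.redSub_sup 𝒩.on2 (riemannRochSpace (𝒩.X a 0)) (riemannRochSpace (𝒩.X 0 b))
    (le_trans (Submodule.finrank_mono hle) (by rw [𝒩.finrank_Msub_zero hx hb]; exact hdim))
  have hmem : T.red z ∈ T.redSub (riemannRochSpace (𝒩.X a 0) ⊔ riemannRochSpace (𝒩.X 0 b)) :=
    ⟨z, hz, rfl⟩
  rw [hsat] at hmem
  exact sup_le_sup (𝒩.redSub_le_Msub a 0) (𝒩.redSub_le_Msub 0 b) hmem

end NodalData

end Fermat.Agent.SS
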