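import Fermat.Agent.SS.H1.Normal
import Fermat.Agent.NP.Binom

/-!
# SS / H1, part 2 : `p`-torsion, the Frobenius relation on `H¹(Z, O)`

(L5) Let `IsOne T p D f`, `IsPair 𝒩 D a b n₁ n₂ ψ c`, `0 < |c| < 1`, `red ψ ∉ M₁ + M₂`.
`b_i := f n_i ^ p` lies in `L(p a P) ∩ O`, resp. `L(p b P') ∩ O`, and
`b₁ - b₂ = f ((n₂ + c ψ) ^ p - n₂ ^ p) = f (p c ψ n₂ ^ (p - 1) + p c ^ 2 r + c ^ p ψ ^ p)`, `r ∈ O`
(`add_pow_prime_expand` below).
* if `|c ^ (p - 1)| < |p|` then `(b₁ - b₂) / (p c) ∈ O` reduces to `red ψ`; by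
  `red_mem_sup_of_sub` and `mem_sup_shrink` `red ψ ∈ M₁ + M₂` : absurd.  So `u := p / c ^ (p - 1) ∈ A`.
* `(b₁ - b₂) / c ^ p = f (ψ ^ p + u (ψ n₂ ^ (p - 1) + c r))` reduces to `(red ψ) ^ p + ū red ψ`, which
  therefore lies in `M 1 (p a) 0 + M 1 0 (p b)`.
-/

set_option autoImplicit false
set_option linter.unusedSectionVars false

open AlgebraicCurve

namespace Fermat.Agent.SS

open Fermat.Agent.RED Fermat.Agent.S24

/-- `(y + z) ^ p = y ^ p + p z y ^ (p - 1) + p z ^ 2 r + z ^ p` -/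
theorem add_pow_prime_expand {R : Type*} [CommRing R] {p : ℕ} (hp : p.Prime) (y z : R) :
    ∃ r : R, (y + z) ^ p = y ^ p + (p : R) * z * y ^ (p - 1) + (p : R) * z ^ 2 * r + z ^ p := by
  obtain ⟨r, hr⟩ := Fermat.Agent.NP.exists_add_pow_prime hp y z
  exact ⟨r, by rw [hr]; ring⟩

variable {K F k Fb : Type*} [Field K] [Field F] [Algebra K F] [Field k] [Field Fb] [Algebra k Fb]
  [IsAlgClosed K] [IsAlgClosed k] {x : F} {t : Fb}

/-- `u ∈ L(D + X)`, `p D = div f` : `f u ^ p ∈ L(p X)`. -/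
theorem IsOne.mul_pow_mem_L {T : TwoRed K F k Fb} {p : ℕ} {D : Divisor K F} {f : T.O}
    (h : IsOne T p D f) {X : Divisor K F} {u : F} (hu : u ∈ riemannRochSpace (D + X)) :
    (f : F) * u ^ p ∈ riemannRochSpace (p • X) := by
  rcases eq_or_ne u 0 with rfl | hu0
  · rcases Nat.eq_zero_or_pos p with rfl | hp
    · have h0 : ∀ v : Place K F, v.ord (f : F) = 0 := fun v => by rw [← h.ord v]; simp
      rw [pow_zero, mul_one, mem_L_iff_of_ne_zero h.ne_zero]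
      intro v
      rw [h0 v]
      simp
    · rw [zero_pow hp.ne', mul_zero]
      exact Submodule.zero_mem _
  rw [mem_L_iff_of_ne_zero hu0] at hu
  rw [mem_L_iff_of_ne_zero (mul_ne_zero h.ne_zero (pow_ne_zero p hu0))]
  intro v
  have h1 := hu v
  rw [v.ord_mul h.ne_zero (pow_ne_zero p hu0), ← h.ord v, Place.ord_pow, Finsupp.smul_apply,
    nsmul_eq_mul]
  rw [Finsupp.add_apply] at h1
  have h2 : (0 : ℤ) ≤ (p : ℤ) * (v.ord u + (D v + X v)) := mul_nonneg (Nat.cast_nonneg p) h1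
  linarith

namespace IsPair

variable {T : TwoRed K F k Fb} {𝒩 : NodalData T}

/-- `f n₁ ^ p ∈ L(p a P)` -/
theorem mul_pow_mem₁ {p : ℕ} {D : Divisor K F} {f : T.O} (h : IsOne T p D f)
    {a b : ℕ} {n₁ n₂ ψ : T.O} {c : K} (hP : IsPair 𝒩 D a b n₁ n₂ ψ c) :
    ((f * n₁ ^ p : T.O) : F) ∈ riemannRochSpace (𝒩.X (p * a) 0) := by
  have := h.mul_pow_mem_L hP.mem₁
  rwa [← 𝒩.wsX_mul, mul_zero] at this

theorem mul_pow_mem₂ {p : ℕ} {D : Divisor K F} {f : T.O} (h : IsOne T p D f)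
    {a b : ℕ} {n₁ n₂ ψ : T.O} {c : K} (hP : IsPair 𝒩 D a b n₁ n₂ ψ c) :
    ((f * n₂ ^ p : T.O) : F) ∈ riemannRochSpace (𝒩.X 0 (p * b)) := by
  have := h.mul_pow_mem_L hP.mem₂
  rwa [← 𝒩.wsX_mul, mul_zero] at this

/-- the binomial expansion of `f n₁ ^ p - f n₂ ^ p`. -/
theorem exists_expand {p : ℕ} (hp : p.Prime) {D : Divisor K F} (f : T.O)
    {a b : ℕ} {n₁ n₂ ψ : T.O} {c : K} (hP : IsPair 𝒩 D a b n₁ n₂ ψ c) (hc1 : T.v c ≤ 1) :
    ∃ r : T.O, ((f * n₁ ^ p : T.O) : F) - ((f * n₂ ^ p : T.O) : F) =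
      (f : F) * (algebraMap K F ((p : K) * c) * ((ψ : F) * (n₂ : F) ^ (p - 1)) +
        algebraMap K F ((p : K) * c ^ 2) * ((ψ : F) ^ 2 * (r : F)) +
        algebraMap K F (c ^ p) * (ψ : F) ^ p) := by
  have hcA : c ∈ T.A := T.v_le_one_iff.1 hc1
  set C : T.O := ⟨algebraMap K F c, T.algebraMap_mem_O hcA⟩ with hC
  have e1 : n₁ = n₂ + C * ψ := by
    apply Subtype.ext
    show (n₁ : F) = (n₂ : F) + algebraMap K F c * (ψ : F)
    rw [← hP.eq]; ring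
  obtain ⟨r, hr⟩ := add_pow_prime_expand hp n₂ (C * ψ)
  refine ⟨r, ?_⟩
  have hr' := congrArg (Subtype.val : T.O → F) hr
  rw [← e1] at hr'
  have e2 : ((n₁ ^ p : T.O) : F) = (n₂ : F) ^ p +
      (p : F) * (algebraMap K F c * (ψ : F)) * (n₂ : F) ^ (p - 1) +
      (p : F) * (algebraMap K F c * (ψ : F)) ^ 2 * (r : F) + (algebraMap K F c * (ψ : F)) ^ p := by
    rw [hr']
    simp [hC]
  show (f : F) * ((n₁ ^ p : T.O) : F) - (f : F) * (n₂ : F) ^ p = _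
  rw [e2, map_mul, map_mul, map_pow, map_pow, map_natCast]
  ring

/-- (L5a) the depth is at most `1 / (p - 1)` -/
theorem v_p_le (hx : IsSepParam K x) (hb : IsSepParam k t) {n : ℕ} (hn : 𝒩.IsLarge n)
    {p : ℕ} (hp : p.Prime) [CharP k p] {D : Divisor K F} {f : T.O} (h : IsOne T p D f)
    {a b : ℕ} (hab : n ≤ a + b) {n₁ n₂ ψ : T.O} {c : K}
    (hP : IsPair 𝒩 D a b n₁ n₂ ψ c) (hc : c ≠ 0) (hc1 : T.v c < 1)
    (hψ : T.red ψ ∉ 𝒩.Msub 1 a 0 ⊔ 𝒩.Msub 1 0 b) : T.v (p : K) ≤ T.v c ^ (p - 1) := by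
  by_contra hlt
  rw [not_le, ← map_pow] at hlt
  have hp0 : (p : K) ≠ 0 := by
    intro h0
    rw [h0, map_zero] at hlt
    exact not_lt_zero hlt
  obtain ⟨r, hr⟩ := hP.exists_expand hp f hc1.le
  have hcA : c ∈ T.A := T.v_le_one_iff.1 hc1.le
  set C : T.O := ⟨algebraMap K F c, T.algebraMap_mem_O hcA⟩ with hC
  have hC0 : T.red C = 0 := T.red_eq_zero_of_v_lt hc1 1 C (by simp [hC])
  have hE1 : T.v (c ^ (p - 1) * (p : K)⁻¹) < 1 := T.v_div_lt_one hlt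
  set E : T.O := ⟨algebraMap K F (c ^ (p - 1) * (p : K)⁻¹),
    T.algebraMap_mem_O (T.v_le_one_iff.1 hE1.le)⟩ with hE
  have hE0 : T.red E = 0 := T.red_eq_zero_of_v_lt hE1 1 E (by simp [hE])
  set z : T.O := f * (ψ * n₂ ^ (p - 1) + C * (ψ ^ 2 * r) + E * ψ ^ p) with hz
  have hzF : ((f * n₁ ^ p : T.O) : F) - ((f * n₂ ^ p : T.O) : F) =
      algebraMap K F ((p : K) * c) * (z : F) := by
    rw [hr]
    show _ = algebraMap K F ((p : K) * c) * ((f : F) * ((ψ : F) * (n₂ : F) ^ (p - 1) +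
      algebraMap K F c * ((ψ : F) ^ 2 * (r : F)) +
      algebraMap K F (c ^ (p - 1) * (p : K)⁻¹) * (ψ : F) ^ p))
    have e1 : c ^ p = (p : K) * c * (c ^ (p - 1) * (p : K)⁻¹) := by
      have : c ^ p = c ^ (p - 1) * c := by rw [← pow_succ, Nat.sub_add_cancel hp.one_le]
      rw [this]
      field_simp
    have e2 : (p : K) * c ^ 2 = (p : K) * c * c := by ring
    rw [e1, e2]
    simp only [map_mul]
    ring
  have hmem := 𝒩.red_mem_sup_of_sub hx hb (f * n₁ ^ p) (f * n₂ ^ p) z (mul_ne_zero hp0 hc)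
    (hP.mul_pow_mem₁ h) (hP.mul_pow_mem₂ h) hzF
  have hred : T.red z = T.red ψ := by
    rw [hz]
    simp only [map_mul, map_add, map_pow, h.red, hP.red₂, hC0, hE0]
    ring
  rw [hred] at hmem
  exact hψ (𝒩.mem_sup_shrink (hP.red_mem hx hb hn hp h hab hc) hmem)

/-- (L5b) the Frobenius relation; `ub` is the reduction of `p / c ^ (p - 1)`.  Also exports the
decomposition `f n₁ ^ p = κ + c ^ p b₁'`. -/
theorem frob_rel (hx : IsSepParam K x) (hb : IsSepParam k t)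
    {p : ℕ} (hp : p.Prime) [CharP k p] {D : Divisor K F} {f : T.O} (h : IsOne T p D f)
    {a b : ℕ} {n₁ n₂ ψ : T.O} {c : K}
    (hP : IsPair 𝒩 D a b n₁ n₂ ψ c) (hc : c ≠ 0) (hc1 : T.v c < 1)
    (hu : T.v (p : K) ≤ T.v c ^ (p - 1)) (U : T.O)
    (hU : (U : F) = algebraMap K F ((p : K) * (c ^ (p - 1))⁻¹)) :
    (T.red ψ) ^ p + T.red U * T.red ψ ∈ 𝒩.Msub 1 (p * a) 0 ⊔ 𝒩.Msub 1 0 (p * b) := by
  obtain ⟨r, hr⟩ := hP.exists_expand hp f hc1.le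
  have hcA : c ∈ T.A := T.v_le_one_iff.1 hc1.le
  set C : T.O := ⟨algebraMap K F c, T.algebraMap_mem_O hcA⟩ with hC
  have hC0 : T.red C = 0 := T.red_eq_zero_of_v_lt hc1 1 C (by simp [hC])
  set z : T.O := f * (ψ ^ p + U * (ψ * n₂ ^ (p - 1) + C * (ψ ^ 2 * r))) with hz
  have hzF : ((f * n₁ ^ p : T.O) : F) - ((f * n₂ ^ p : T.O) : F) =
      algebraMap K F (c ^ p) * (z : F) := by
    rw [hr]
    show _ = algebraMap K F (c ^ p) * ((f : F) * ((ψ : F) ^ p + (U : F) *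
      ((ψ : F) * (n₂ : F) ^ (p - 1) + algebraMap K F c * ((ψ : F) ^ 2 * (r : F)))))
    rw [hU]
    have e1 : (p : K) * c = c ^ p * ((p : K) * (c ^ (p - 1))⁻¹) := by
      have : c ^ p = c ^ (p - 1) * c := by rw [← pow_succ, Nat.sub_add_cancel hp.one_le]
      rw [this]
      field_simp
    have e2 : (p : K) * c ^ 2 = c ^ p * ((p : K) * (c ^ (p - 1))⁻¹) * c := by
      rw [← e1]; ring
    rw [e2, e1]
    simp only [map_mul]
    ring
  have hmem := 𝒩.red_mem_sup_of_sub hx hb (f * n₁ ^ p) (f * n₂ ^ p) z (pow_ne_zero p hc)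
    (hP.mul_pow_mem₁ h) (hP.mul_pow_mem₂ h) hzF
  have hred : T.red z = (T.red ψ) ^ p + T.red U * T.red ψ := by
    rw [hz]
    simp only [map_mul, map_add, map_pow, h.red, hP.red₂, hC0]
    ring
  rwa [hred] at hmem

/-- (L5c) type I -/
theorem pow_mem_of_v_lt (hx : IsSepParam K x) (hb : IsSepParam k t)
    {p : ℕ} (hp : p.Prime) [CharP k p] {D : Divisor K F} {f : T.O} (h : IsOne T p D f)
    {a b : ℕ} {n₁ n₂ ψ : T.O} {c : K}
    (hP : IsPair 𝒩 D a b n₁ n₂ ψ c) (hc : c ≠ 0) (hc1 : T.v c < 1)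
    (hu : T.v (p : K) < T.v c ^ (p - 1)) :
    (T.red ψ) ^ p ∈ 𝒩.Msub 1 (p * a) 0 ⊔ 𝒩.Msub 1 0 (p * b) := by
  have hu' : T.v (p : K) < T.v (c ^ (p - 1)) := by rwa [map_pow]
  have hU1 : T.v ((p : K) * (c ^ (p - 1))⁻¹) < 1 := T.v_div_lt_one hu'
  set U : T.O := ⟨algebraMap K F ((p : K) * (c ^ (p - 1))⁻¹),
    T.algebraMap_mem_O (T.v_le_one_iff.1 hU1.le)⟩ with hU
  have hU0 : T.red U = 0 := T.red_eq_zero_of_v_lt hU1 1 U (by simp [hU])
  have := hP.frob_rel hx hb hp h hc hc1 hu.le U rfl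
  rwa [hU0, zero_mul, add_zero] at this

end IsPair

end Fermat.Agent.SS
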